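/-
S20 / T1-GLUE (helper92): shared SETUP for the assembly of (T1)
  `finrank_K Hol(F) = genus K F`  in Prelude terms.

Setting ("RatFunc setting"):  `K` a field, `F` a field which is a finite extension of `RatFunc K`,
with compatible `K`- and `K[X]`-algebra structures.  `xF K F` is the image of `X`.
`Bfin K F` = integral closure of `K[X]` in `F`,  `Binf K F` = integral closure of the valuation
ring at infinity `Oinf K` (helper63's `NormalBasis.Oinf`) in `F`.

All instances are `scoped` in namespace `Fermat.Agent.S20.T1` (use `open Fermat.Agent.S20.T1`).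
No sorry in this file.
-/
import Mathlib
import Fermat.Agent.S24.Defs
import Fermat.Agent.S20.NormalBasis

set_option autoImplicit false

open Polynomial
open scoped Classical

noncomputable section

namespace Fermat.Agent.S20.T1

open Fermat.Agent.S20.NormalBasis (Oinf)

/-! ### Generic facts on integral closures in a finite separable extension -/

section Generic

theorem ic_isDedekindDomain (A K₀ F : Type*) [CommRing A] [IsDedekindDomain A] [Field K₀]
    [Algebra A K₀] [IsFractionRing A K₀] [Field F] [Algebra K₀ F] [Algebra A F]
    [IsScalarTower A K₀ F] [FiniteDimensional K₀ F] [Algebra.IsSeparable K₀ F] :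
    IsDedekindDomain (integralClosure A F) :=
  integralClosure.isDedekindDomain A K₀ F

theorem ic_isFractionRing (A K₀ F : Type*) [CommRing A] [IsDedekindDomain A] [Field K₀]
    [Algebra A K₀] [IsFractionRing A K₀] [Field F] [Algebra K₀ F] [Algebra A F]
    [IsScalarTower A K₀ F] [FiniteDimensional K₀ F] :
    IsFractionRing (integralClosure A F) F :=
  integralClosure.isFractionRing_of_finite_extension K₀ F

theorem ic_finite (A K₀ F : Type*) [CommRing A] [IsDedekindDomain A] [Field K₀]
    [Algebra A K₀] [IsFractionRing A K₀] [Field F] [Algebra K₀ F] [Algebra A F]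
    [IsScalarTower A K₀ F] [FiniteDimensional K₀ F] [Algebra.IsSeparable K₀ F] :
    Module.Finite A (integralClosure A F) :=
  IsIntegralClosure.finite A K₀ F (integralClosure A F)

end Generic

/-! ### The constants inside `Oinf K` -/

section OinfAlg

variable (K : Type*) [Field K]

theorem algebraMap_mem_Oinf (c : K) : algebraMap K (RatFunc K) c ∈ Oinf K := by
  rw [RatFunc.algebraMap_eq_C]
  exact NormalBasis.C_mem_Oinf c

/-- `Oinf K` is a `K`-algebra (constants). -/
scoped instance algebraOinf : Algebra K (Oinf K) :=
  ((algebraMap K (RatFunc K)).codRestrict (Oinf K).toSubring (algebraMap_mem_Oinf K)).toAlgebra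

scoped instance isScalarTower_Oinf : IsScalarTower K (Oinf K) (RatFunc K) :=
  IsScalarTower.of_algebraMap_eq fun _ => rfl

theorem coe_algebraMap_Oinf (c : K) :
    ((algebraMap K (Oinf K) c : Oinf K) : RatFunc K) = algebraMap K (RatFunc K) c := rfl

end OinfAlg

/-! ### The RatFunc setting -/

section Setting

variable (K F : Type*) [Field K] [Field F] [Algebra K F] [Algebra (RatFunc K) F]
  [IsScalarTower K (RatFunc K) F] [Algebra K[X] F] [IsScalarTower K[X] (RatFunc K) F]

/-- The image of `X` in `F`. -/
def xF : F := algebraMap (RatFunc K) F RatFunc.X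

omit [Algebra K F] [IsScalarTower K (RatFunc K) F] in
theorem algebraMap_poly_X : algebraMap K[X] F (X : K[X]) = xF K F := by
  rw [IsScalarTower.algebraMap_apply K[X] (RatFunc K) F, RatFunc.algebraMap_X]
  rfl

scoped instance isScalarTower_poly : IsScalarTower K K[X] F :=
  IsScalarTower.of_algebraMap_eq fun c => by
    rw [IsScalarTower.algebraMap_apply K (RatFunc K) F,
      IsScalarTower.algebraMap_apply K[X] (RatFunc K) F,
      ← IsScalarTower.algebraMap_apply K K[X] (RatFunc K)]

scoped instance isScalarTower_OinfF : IsScalarTower K (Oinf K) F :=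
  IsScalarTower.of_algebraMap_eq fun c => by
    rw [IsScalarTower.algebraMap_apply K (RatFunc K) F,
      IsScalarTower.algebraMap_apply (Oinf K) (RatFunc K) F]
    rfl

scoped instance torsionFree_poly : Module.IsTorsionFree K[X] F :=
  Module.IsTorsionFree.trans (R := RatFunc K)

scoped instance torsionFree_Oinf_ratFunc : Module.IsTorsionFree (Oinf K) (RatFunc K) :=
  Module.IsTorsionFree.of_smul_eq_zero fun r m h => by
    rw [Algebra.smul_def, mul_eq_zero] at h
    rcases h with h | h
    · left
      exact Subtype.ext h
    · exact Or.inr h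

scoped instance torsionFree_Oinf : Module.IsTorsionFree (Oinf K) F :=
  Module.IsTorsionFree.trans (R := RatFunc K)

/-- Integral closure of `K[X]` in `F`. -/
abbrev Bfin : Subalgebra K[X] F := integralClosure K[X] F

/-- Integral closure of `Oinf K` in `F`. -/
abbrev Binf : Subalgebra (Oinf K) F := integralClosure (Oinf K) F

variable [FiniteDimensional (RatFunc K) F] [CharZero K]

scoped instance : IsDedekindDomain (Bfin K F) := ic_isDedekindDomain K[X] (RatFunc K) F
scoped instance : IsFractionRing (Bfin K F) F := ic_isFractionRing K[X] (RatFunc K) F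
scoped instance : Module.Finite K[X] (Bfin K F) := ic_finite K[X] (RatFunc K) F
scoped instance : IsDedekindDomain (Binf K F) := ic_isDedekindDomain (Oinf K) (RatFunc K) F
scoped instance : IsFractionRing (Binf K F) F := ic_isFractionRing (Oinf K) (RatFunc K) F
scoped instance : Module.Finite (Oinf K) (Binf K F) := ic_finite (Oinf K) (RatFunc K) F

end Setting

end Fermat.Agent.S20.T1
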