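/-
S20 / T1-GLUE (helper92): the FINITE place dictionary in the RatFunc setting, and the order of
`d x` at a finite place as the exponent of the different.
No sorry.
-/
import Fermat.Agent.S20.T1.Setup
import Fermat.Agent.S20.T1Dual86
import Fermat.Agent.S24.Pkg_FF1a
import Fermat.Agent.S24.Pkg_FF3_86

set_option autoImplicit false
set_option linter.unusedSectionVars false

open Polynomial AlgebraicCurve IsDedekindDomain KaehlerDifferential WithZero
  UniqueFactorizationMonoid
open scoped Classical

noncomputable section

namespace Fermat.Agent.S20.T1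

open Fermat.Agent.S20.NormalBasis (Oinf)
open Fermat.Agent.S24 Fermat.Agent.S24.PlaceDedekind

section Generic

variable {F : Type*} [Field F]

/-- A valuation subring containing the image of `A` contains every element integral over `A`. -/
theorem mem_of_isIntegral_of_algebraMap_mem {A : Type*} [CommRing A] [Algebra A F]
    (V : ValuationSubring F) (hA : ∀ a : A, algebraMap A F a ∈ V) {b : F}
    (hb : IsIntegral A b) : b ∈ V := by
  obtain ⟨p, hp, hpb⟩ := hb
  let ι : A →+* V := (algebraMap A F).codRestrict V.toSubring hA
  have hint : IsIntegral V b := by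
    refine ⟨p.map ι, hp.map ι, ?_⟩
    rw [Polynomial.eval₂_map]
    exact hpb
  obtain ⟨y, hy⟩ := IsIntegrallyClosed.algebraMap_eq_of_integral (R := V) (K := F) hint
  rw [← hy]
  exact y.2

end Generic

section Fin

variable (K F : Type*) [Field K] [Field F] [Algebra K F] [Algebra (RatFunc K) F]
  [IsScalarTower K (RatFunc K) F] [Algebra K[X] F] [IsScalarTower K[X] (RatFunc K) F]

omit [IsScalarTower K (RatFunc K) F] in
/-- the image of a polynomial is its value at `xF`. -/
theorem places_algebraMap_poly_eq_aeval [IsScalarTower K K[X] F] (p : K[X]) :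
    algebraMap K[X] F p = aeval (xF K F) p := by
  induction p using Polynomial.induction_on' with
  | add p q hp hq => rw [map_add, map_add, hp, hq]
  | monomial n a =>
    rw [← C_mul_X_pow_eq_monomial, map_mul, map_pow, algebraMap_poly_X, map_mul, map_pow, aeval_X,
      aeval_C, ← Polynomial.algebraMap_eq, ← IsScalarTower.algebraMap_apply]

/-- A valuation subring containing `K` and `xF` contains the image of `K[X]`. -/
theorem algebraMap_poly_mem (V : ValuationSubring F) (hK : ∀ a : K, algebraMap K F a ∈ V)
    (hx : xF K F ∈ V) (p : K[X]) : algebraMap K[X] F p ∈ V := by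
  rw [places_algebraMap_poly_eq_aeval, aeval_eq_sum_range]
  refine sum_mem fun i _ => ?_
  rw [Algebra.smul_def]
  exact mul_mem (hK _) (pow_mem hx i)

/-- A valuation subring containing `K` and `xF` contains `Bfin`. -/
theorem Bfin_le (V : ValuationSubring F) (hK : ∀ a : K, algebraMap K F a ∈ V)
    (hx : xF K F ∈ V) (b : Bfin K F) : (b : F) ∈ V :=
  mem_of_isIntegral_of_algebraMap_mem V (algebraMap_poly_mem K F V hK hx) b.2

variable [FiniteDimensional (RatFunc K) F] [CharZero K]

/-- Every place `v` with `xF ∈ O_v` comes from a prime of `Bfin`. -/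
theorem exists_finPrime (v : Place K F) (hx : xF K F ∈ v.toValuationSubring) :
    ∃ P : HeightOneSpectrum (Bfin K F), Place.ofHeightOneSpectrum (K := K) P = v :=
  exists_ofHeightOneSpectrum_eq v (fun b => Bfin_le K F _ v.algebraMap_mem' hx b)

/-- `xF` is regular at the place of a prime of `Bfin`. -/
theorem xF_mem_finPlace (P : HeightOneSpectrum (Bfin K F)) :
    xF K F ∈ (Place.ofHeightOneSpectrum (K := K) (F := F) P).toValuationSubring := by
  rw [mem_ofHeightOneSpectrum_iff, ← algebraMap_poly_X]
  exact P.valuation_le_one (K := F) (algebraMap K[X] (Bfin K F) X)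

end Fin

/-! ### centres of finite places, and the different -/

section FinCenter

variable (K F : Type*) [Field K] [Field F] [Algebra K F] [Algebra (RatFunc K) F]
  [IsScalarTower K (RatFunc K) F] [Algebra K[X] F] [IsScalarTower K[X] (RatFunc K) F]
  [FiniteDimensional (RatFunc K) F] [CharZero K] [IsAlgClosed K]

variable {K F} in
theorem exists_center_finPrime (hF : IsFunctionFieldOver K (xF K F))
    (P : HeightOneSpectrum (Bfin K F)) :
    ∃ c : K, 0 < (Place.ofHeightOneSpectrum (K := K) (F := F) P).ord
      (xF K F - algebraMap K F c) := by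
  rcases exists_center hF (Place.ofHeightOneSpectrum (K := K) (F := F) P) with h | ⟨c, hc⟩
  · exfalso
    have h1 : (Place.ofHeightOneSpectrum (K := K) (F := F) P).ord (xF K F) < 0 := h
    have h2 := PlaceLocal.ord_nonneg_of_mem _ (xF_mem_finPlace K F P)
    omega
  · exact ⟨c, hc⟩

variable {K F} in
/-- The centre of the prime `P` of `Bfin` on the `x`-line. -/
def finCenter (hF : IsFunctionFieldOver K (xF K F)) (P : HeightOneSpectrum (Bfin K F)) : K :=
  (exists_center_finPrime hF P).choose

variable {K F} in
theorem finCenter_spec (hF : IsFunctionFieldOver K (xF K F)) (P : HeightOneSpectrum (Bfin K F)) :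
    0 < (Place.ofHeightOneSpectrum (K := K) (F := F) P).ord
      (xF K F - algebraMap K F (finCenter hF P)) :=
  (exists_center_finPrime hF P).choose_spec

omit [FiniteDimensional (RatFunc K) F] [CharZero K] [IsAlgClosed K] in
theorem algebraMap_X_sub_C (c : K) :
    algebraMap K[X] F (X - C c) = xF K F - algebraMap K F c := by
  rw [map_sub, algebraMap_poly_X, ← Polynomial.algebraMap_eq, ← IsScalarTower.algebraMap_apply]

omit [FiniteDimensional (RatFunc K) F] [CharZero K] [IsAlgClosed K] in
theorem xF_sub_ne_zero (hx : Transcendental K (xF K F)) (c : K) :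
    xF K F - algebraMap K F c ≠ 0 := by
  intro h
  exact hx ((sub_eq_zero.mp h) ▸ isAlgebraic_algebraMap c)

variable {K F} in
theorem X_sub_C_finCenter_mem (hF : IsFunctionFieldOver K (xF K F))
    (P : HeightOneSpectrum (Bfin K F)) :
    algebraMap K[X] (Bfin K F) (X - C (finCenter hF P)) ∈ P.asIdeal := by
  refine (P.valuation_lt_one_iff_mem (K := F) _).mp ?_
  show P.valuation F (algebraMap K[X] F (X - C (finCenter hF P))) < 1
  rw [algebraMap_X_sub_C,
    T1Dual86.valuation_eq_exp_neg_ord K F P (xF_sub_ne_zero K F hF.transcendental _), ← exp_zero,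
    exp_lt_exp]
  have := finCenter_spec hF P
  omega

theorem charZero_quotient_X_sub_C (c : K) :
    CharZero (K[X] ⧸ Ideal.span {(X - C c : K[X])}) :=
  TameDiff79.charZero_quotient_of_field_algebra K _
    (PrincipalIdealRing.isMaximal_of_irreducible (irreducible_X_sub_C c)).ne_top

variable {K F} in
/-- `ord_v (x - c) = d_P + 1` at the finite place `v` of the prime `P` with centre `c`, where
`d_P` is the exponent of `P` in the different of `Bfin / K[X]`. -/
theorem ord_sub_finCenter (hF : IsFunctionFieldOver K (xF K F))
    (P : HeightOneSpectrum (Bfin K F)) :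
    (Place.ofHeightOneSpectrum (K := K) (F := F) P).ord
        (xF K F - algebraMap K F (finCenter hF P)) =
      ((normalizedFactors (differentIdeal K[X] (Bfin K F))).count P.asIdeal : ℤ) + 1 := by
  have := charZero_quotient_X_sub_C K (finCenter hF P)
  have h1 := T1Dual86.valuation_uniformizer_eq K[X] (RatFunc K) F P
    (t := X - C (finCenter hF P))
    (PrincipalIdealRing.isMaximal_of_irreducible (irreducible_X_sub_C _))
    (X_sub_C_ne_zero _) (X_sub_C_finCenter_mem hF P)
  rw [algebraMap_X_sub_C,
    T1Dual86.valuation_eq_exp_neg_ord K F P (xF_sub_ne_zero K F hF.transcendental _)] at h1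
  have h2 := exp_injective h1
  omega

variable {K F} in
/-- **The order of `d x` at a finite place is the exponent of the different.** -/
theorem ordDifferential_D_finPlace (hF : IsFunctionFieldOver K (xF K F))
    (P : HeightOneSpectrum (Bfin K F)) :
    (Place.ofHeightOneSpectrum (K := K) (F := F) P).ordDifferential (D K F (xF K F)) =
      ((normalizedFactors (differentIdeal K[X] (Bfin K F))).count P.asIdeal : ℤ) := by
  rw [ordDifferential_D_of_pos hF _ (finCenter hF P) (finCenter_spec hF P), ord_sub_finCenter hF P]
  ring

end FinCenter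

end Fermat.Agent.S20.T1
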