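/-
S20 / T1-GLUE (helper92): existence of canonical divisors (`HasCanonicalDivisor`) for a function
field `F/K` (`K` algebraically closed of characteristic zero), in the RatFunc setting.
No sorry.
-/
import Fermat.Agent.S20.T1.Places
import Fermat.Agent.S24.Pkg_FF1b
import Fermat.Agent.S24.Pkg_FF2

set_option autoImplicit false
set_option linter.unusedSectionVars false

open Polynomial AlgebraicCurve IsDedekindDomain KaehlerDifferential WithZero
  UniqueFactorizationMonoid
open scoped Classical

noncomputable section

namespace Fermat.Agent.S20.T1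

open Fermat.Agent.S20.NormalBasis (Oinf)
open Fermat.Agent.S24 Fermat.Agent.S24.PlaceDedekind

section

variable {K F : Type*} [Field K] [Field F] [Algebra K F] [Algebra (RatFunc K) F]
  [IsScalarTower K (RatFunc K) F] [Algebra K[X] F] [IsScalarTower K[X] (RatFunc K) F]
  [FiniteDimensional (RatFunc K) F] [CharZero K] [IsAlgClosed K]

theorem xF_mem_of_not_mem_placesOverInfty (v : Place K F)
    (hv : v ∉ placesOverInfty K (xF K F)) : xF K F ∈ v.toValuationSubring := by
  apply PlaceLocal.mem_of_ord_nonneg
  have : ¬ v.ord (xF K F) < 0 := hv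
  omega

variable (K F) in
theorem differentIdeal_Bfin_ne_bot : differentIdeal K[X] (Bfin K F) ≠ ⊥ :=
  T1Dual86.differentIdeal_ne_bot' K[X] (RatFunc K) F

variable (hF : IsFunctionFieldOver K (xF K F))
include hF

/-- `d x` has only finitely many zeros and poles. -/
theorem finite_support_ordDifferential_D :
    {v : Place K F | v.ordDifferential (D K F (xF K F)) ≠ 0}.Finite := by
  have h1 := finite_placesOverInfty hF
  have h2 := (Ideal.finite_factors (differentIdeal_Bfin_ne_bot K F)).image
    (fun P => Place.ofHeightOneSpectrum (K := K) (F := F) P)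
  refine (h1.union h2).subset ?_
  intro v hv
  by_cases hinf : v ∈ placesOverInfty K (xF K F)
  · exact Or.inl hinf
  right
  obtain ⟨P, rfl⟩ := exists_finPrime K F v (xF_mem_of_not_mem_placesOverInfty v hinf)
  refine ⟨P, ?_, rfl⟩
  have hv' : (Place.ofHeightOneSpectrum (K := K) (F := F) P).ordDifferential
      (D K F (xF K F)) ≠ 0 := hv
  rw [ordDifferential_D_finPlace hF P] at hv'
  have hcount : (normalizedFactors (differentIdeal K[X] (Bfin K F))).count P.asIdeal ≠ 0 := by
    intro h0; apply hv'; rw [h0]; rfl
  have hmem := Multiset.count_ne_zero.mp hcount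
  exact dvd_of_mem_normalizedFactors hmem

/-- **Existence of canonical divisors.** -/
theorem hasCanonicalDivisor : HasCanonicalDivisor (K := K) (F := F) := by
  refine ⟨fun ω hω => ?_⟩
  have hnt : Nontrivial Ω[F⁄K] := ⟨⟨D K F (xF K F), 0, D_ne_zero hF⟩⟩
  obtain ⟨f, rfl⟩ : ∃ f : F, f • D K F (xF K F) = ω := by
    have hmem : ω ∈ Submodule.span F {D K F (xF K F)} := by rw [span_D_eq_top hF]; trivial
    exact Submodule.mem_span_singleton.mp hmem
  have hf0 : f ≠ 0 := by rintro rfl; exact hω (zero_smul _ _)
  have hfin : (Function.support fun v : Place K F =>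
      v.ordDifferential (f • D K F (xF K F))).Finite := by
    refine ((finite_support_ord hF hf0).union (finite_support_ordDifferential_D hF)).subset ?_
    intro v hv
    have := dCoordGenerates hF v
    rw [Function.mem_support, Diff.ordDifferential_smul' v hf0 (D_ne_zero hF)] at hv
    by_contra hcon
    rw [Set.mem_union, not_or] at hcon
    have h1 : v.ord f = 0 := by
      by_contra h; exact hcon.1 h
    have h2 : v.ordDifferential (D K F (xF K F)) = 0 := by
      by_contra h; exact hcon.2 h
    exact hv (by rw [h1, h2]; rfl)
  exact ⟨Finsupp.ofSupportFinite _ hfin, fun v => rfl⟩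

end

end Fermat.Agent.S20.T1
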