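/-
S20 / T1-GLUE (helper92): the degree of the canonical divisor.

General part (any `hF : S24.IsFunctionFieldOver K x`): the degree of `div ω` is the finite sum of
the orders of `d x`, for every `ω ≠ 0`; hence a formula for `genus K F`.

RatFunc setting: `∑ᶠ_v ord_v (d x) = deg 𝔇(Bfin / K[X]) + deg 𝔇(Binf / Oinf) - 2 n`, through the
bijections places ↔ primes; the dictionary on the infinite side is an explicit hypothesis
(structure `InfDict`).
No sorry.
-/
import Fermat.Agent.S20.T1.CanDiv

set_option autoImplicit false
set_option linter.unusedSectionVars false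

open Polynomial AlgebraicCurve IsDedekindDomain KaehlerDifferential WithZero
  UniqueFactorizationMonoid
open scoped Classical

noncomputable section

namespace Fermat.Agent.S20.T1

open Fermat.Agent.S20.NormalBasis (Oinf)
open Fermat.Agent.S24 Fermat.Agent.S24.PlaceDedekind

/-! ### generic: counting the prime factors of an ideal over the height one spectrum -/

section Count

variable {B : Type*} [CommRing B] [IsDedekindDomain B]

theorem finsum_count_normalizedFactors (I : Ideal B) :
    ∑ᶠ P : HeightOneSpectrum B, ((normalizedFactors I).count P.asIdeal : ℤ) =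
      Multiset.card (normalizedFactors I) := by
  set m := normalizedFactors I with hm
  have hinj : Function.Injective (fun P : HeightOneSpectrum B => P.asIdeal) :=
    fun P Q h => HeightOneSpectrum.ext h
  have h1 : ∑ᶠ P : HeightOneSpectrum B, (m.count P.asIdeal : ℤ) =
      ∑ᶠ a ∈ Set.range (fun P : HeightOneSpectrum B => P.asIdeal), (m.count a : ℤ) :=
    (finsum_mem_range (f := fun a : Ideal B => (m.count a : ℤ)) hinj).symm
  have hsupp : Function.support (fun a : Ideal B => (m.count a : ℤ)) ⊆ ↑m.toFinset := by
    intro a ha
    rw [Function.mem_support] at ha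
    have : m.count a ≠ 0 := fun h => ha (by rw [h]; rfl)
    simpa using Multiset.count_ne_zero.mp this
  have hrange : (↑m.toFinset : Set (Ideal B)) ⊆
      Set.range (fun P : HeightOneSpectrum B => P.asIdeal) := by
    intro a ha
    have ha' : a ∈ m := by simpa using ha
    have hprime : Prime a := prime_of_normalized_factor a ha'
    exact ⟨⟨a, Ideal.isPrime_of_prime hprime, hprime.ne_zero⟩, rfl⟩
  rw [h1, finsum_mem_eq_sum_of_subset _ (fun a ha => hsupp ha.2) hrange, ← Nat.cast_sum,
    Multiset.toFinset_sum_count_eq]

end Count

/-! ### general part: degree of a canonical divisor as a finite sum -/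

section General

variable {K F : Type*} [Field K] [Field F] [Algebra K F] [IsAlgClosed K] [CharZero K]
variable {x : F} (hF : IsFunctionFieldOver K x)
include hF

theorem degree_eq_finsum (E : Divisor K F) : Divisor.degree E = ∑ᶠ v, E v := by
  have h1 : Divisor.degree E = E.sum fun v n => n * (v.deg : ℤ) := by
    simp [Divisor.degree, Finsupp.liftAddHom_apply]
  rw [h1, Finsupp.sum]
  rw [finsum_eq_sum_of_support_subset (s := E.support)]
  · refine Finset.sum_congr rfl fun v _ => ?_
    rw [place_deg_eq_one hF v]; simp
  · intro v hv
    simpa [Function.mem_support, Finsupp.mem_support_iff] using hv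

/-- The divisor of any nonzero differential has the same degree as the divisor of `d x`. -/
theorem degree_canonicalDivisorOf [HasCanonicalDivisor (K := K) (F := F)]
    {ω : Ω[F⁄K]} (hω : ω ≠ 0) :
    Divisor.degree (canonicalDivisorOf hω) = ∑ᶠ v : Place K F, v.ordDifferential (D K F x) := by
  have hnt : Nontrivial Ω[F⁄K] := ⟨⟨D K F x, 0, D_ne_zero hF⟩⟩
  obtain ⟨f, hf⟩ : ∃ f : F, f • D K F x = ω := by
    have hmem : ω ∈ Submodule.span F {D K F x} := by rw [span_D_eq_top hF]; trivial
    exact Submodule.mem_span_singleton.mp hmem
  have hf0 : f ≠ 0 := by rintro rfl; exact hω (by rw [← hf, zero_smul])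
  obtain ⟨D0, hD0⟩ := HasCanonicalDivisor.exists_divisor (D K F x) (D_ne_zero hF)
  have hsplit : ∀ v : Place K F, canonicalDivisorOf hω v = v.ord f + D0 v := by
    intro v
    have := dCoordGenerates hF v
    rw [canonicalDivisorOf_apply, hD0 v, ← hf, Diff.ordDifferential_smul' v hf0 (D_ne_zero hF)]
  rw [degree_eq_finsum hF]
  have h1 : (fun v => canonicalDivisorOf hω v) = fun v => v.ord f + D0 v := funext hsplit
  rw [h1, finsum_add_distrib, finsum_ord_eq_zero hF hf0, zero_add]
  · exact finsum_congr hD0
  · exact (finite_support_ord hF hf0).subset (fun v hv => by simpa using hv)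
  · exact D0.hasFiniteSupport.subset (fun v hv => by simpa [Function.mem_support] using hv)

/-- The genus in terms of the orders of `d x`. -/
theorem genus_eq_of_finsum [HasCanonicalDivisor (K := K) (F := F)] :
    genus K F = (∑ᶠ v : Place K F, v.ordDifferential (D K F x) + 2).toNat / 2 := by
  have hex : ∃ ω : Ω[F⁄K], ω ≠ 0 := ⟨D K F x, D_ne_zero hF⟩
  unfold genus
  rw [dif_pos hex, degree_canonicalDivisorOf hF]

end General

/-! ### RatFunc setting: the sum of the orders of `d x` -/

section RatFuncDeg

variable (K F : Type*) [Field K] [Field F] [Algebra K F] [Algebra (RatFunc K) F]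
  [IsScalarTower K (RatFunc K) F] [Algebra K[X] F] [IsScalarTower K[X] (RatFunc K) F]
  [FiniteDimensional (RatFunc K) F] [CharZero K] [IsAlgClosed K]

/-- The place dictionary on the infinite side (provided by the G2-inf package). -/
structure InfDict : Prop where
  exists_infPrime : ∀ v : Place K F, v ∈ placesOverInfty K (xF K F) →
    ∃ P : HeightOneSpectrum (Binf K F), Place.ofHeightOneSpectrum (K := K) P = v
  infPlace_mem : ∀ P : HeightOneSpectrum (Binf K F),
    Place.ofHeightOneSpectrum (K := K) (F := F) P ∈ placesOverInfty K (xF K F)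
  ord_xF : ∀ P : HeightOneSpectrum (Binf K F),
    (Place.ofHeightOneSpectrum (K := K) (F := F) P).ord (xF K F) =
      -(((normalizedFactors (differentIdeal (Oinf K) (Binf K F))).count P.asIdeal : ℤ) + 1)

variable {K F}
variable (hF : IsFunctionFieldOver K (xF K F))
include hF

theorem range_finPlace :
    Set.range (fun P : HeightOneSpectrum (Bfin K F) =>
      Place.ofHeightOneSpectrum (K := K) (F := F) P) = (placesOverInfty K (xF K F))ᶜ := by
  ext v
  constructor
  · rintro ⟨P, rfl⟩ hinf
    have h1 : (Place.ofHeightOneSpectrum (K := K) (F := F) P).ord (xF K F) < 0 := hinf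
    have h2 := PlaceLocal.ord_nonneg_of_mem _ (xF_mem_finPlace K F P)
    omega
  · intro hv
    exact exists_finPrime K F v (xF_mem_of_not_mem_placesOverInfty v hv)

theorem range_infPlace (hInf : InfDict K F) :
    Set.range (fun P : HeightOneSpectrum (Binf K F) =>
      Place.ofHeightOneSpectrum (K := K) (F := F) P) = placesOverInfty K (xF K F) := by
  ext v
  constructor
  · rintro ⟨P, rfl⟩
    exact hInf.infPlace_mem P
  · intro hv
    exact hInf.exists_infPrime v hv

/-- finite part of the degree of `div (d x)` -/
theorem finsum_compl_ordDifferential_D :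
    ∑ᶠ v ∈ (placesOverInfty K (xF K F))ᶜ, v.ordDifferential (D K F (xF K F)) =
      Multiset.card (normalizedFactors (differentIdeal K[X] (Bfin K F))) := by
  rw [← range_finPlace hF, finsum_mem_range ofHeightOneSpectrum_injective,
    ← finsum_count_normalizedFactors]
  exact finsum_congr fun P => ordDifferential_D_finPlace hF P

/-- infinite part of the degree of `div (d x)` -/
theorem finsum_infty_ordDifferential_D (hInf : InfDict K F) :
    ∑ᶠ v ∈ placesOverInfty K (xF K F), v.ordDifferential (D K F (xF K F)) =
      Multiset.card (normalizedFactors (differentIdeal (Oinf K) (Binf K F)))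
        - 2 * (degOver K (xF K F) : ℤ) := by
  have hfinP : Finite (HeightOneSpectrum (Binf K F)) := by
    have := (finite_placesOverInfty hF).to_subtype
    exact Finite.of_injective
      (fun P : HeightOneSpectrum (Binf K F) =>
        (⟨Place.ofHeightOneSpectrum (K := K) (F := F) P, hInf.infPlace_mem P⟩ :
          placesOverInfty K (xF K F)))
      (fun P Q h => ofHeightOneSpectrum_injective (K := K) (F := F) (congrArg Subtype.val h))
  have := Fintype.ofFinite (HeightOneSpectrum (Binf K F))
  have hn := sum_ord_placesOverInfty hF
  rw [← range_infPlace hF hInf, finsum_mem_range ofHeightOneSpectrum_injective,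
    finsum_eq_sum_of_fintype] at hn
  rw [← range_infPlace hF hInf, finsum_mem_range ofHeightOneSpectrum_injective,
    ← finsum_count_normalizedFactors, finsum_eq_sum_of_fintype, finsum_eq_sum_of_fintype, ← hn,
    Finset.mul_sum, ← Finset.sum_sub_distrib]
  refine Finset.sum_congr rfl fun P _ => ?_
  rw [ordDifferential_D_of_neg hF _ (hInf.infPlace_mem P), hInf.ord_xF P]
  ring

/-- **The degree of `div (d x)`** as `deg 𝔇_fin + deg 𝔇_inf - 2n`. -/
theorem finsum_ordDifferential_D (hInf : InfDict K F) :
    ∑ᶠ v : Place K F, v.ordDifferential (D K F (xF K F)) =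
      Multiset.card (normalizedFactors (differentIdeal K[X] (Bfin K F)))
        + Multiset.card (normalizedFactors (differentIdeal (Oinf K) (Binf K F)))
        - 2 * (degOver K (xF K F) : ℤ) := by
  have hsupp := finite_support_ordDifferential_D hF
  have h1 := finsum_mem_union' (f := fun v : Place K F => v.ordDifferential (D K F (xF K F)))
    (s := (placesOverInfty K (xF K F))ᶜ) (t := placesOverInfty K (xF K F))
    disjoint_compl_left (hsupp.subset Set.inter_subset_right)
    (hsupp.subset Set.inter_subset_right)
  rw [Set.compl_union_self, finsum_mem_univ] at h1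
  rw [h1, finsum_compl_ordDifferential_D hF, finsum_infty_ordDifferential_D hF hInf]
  ring

end RatFuncDeg

end Fermat.Agent.S20.T1
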