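/-
S20 / T1-GLUE (helper92): ASSEMBLY of  `finrank K (HolF K x) = genus K F`  in the RatFunc setting,
from
* `NormalBasisGlue.dedekind_weber_finrank` (helper58/helper63/helper64) and `T1Const.finrank_eq_one`
  (helper63):   `finrank K H = Σ d_i - n + 1`;
* `T1.finsum_ordDifferential_D` (Degree.lean): `deg div(dx) = deg 𝔇_fin + deg 𝔇_inf - 2n`;
* the three inputs still being produced, as explicit hypotheses:
  `hInf : InfDict K F` (G2-inf), `hHol` (G3: `HolF = {f ∈ C_B | X² f ∈ C_{B_∞}}`),
  `hDW` (DW-d: `2 Σ d_i = deg 𝔇_fin + deg 𝔇_inf`).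
No sorry.
-/
import Fermat.Agent.S20.T1.Degree
import Fermat.Agent.S20.HolDef
import Fermat.Agent.S20.NormalBasisGlue
import Fermat.Agent.S20.T1Const

set_option autoImplicit false
set_option linter.unusedSectionVars false

open Polynomial AlgebraicCurve IsDedekindDomain KaehlerDifferential WithZero
  UniqueFactorizationMonoid Module
open scoped Classical

noncomputable section

namespace Fermat.Agent.S20.T1

open Fermat.Agent.S20.NormalBasis (Oinf)
open Fermat.Agent.S24 Fermat.Agent.S24.PlaceDedekind

section

variable (K F : Type*) [Field K] [Field F] [Algebra K F] [Algebra (RatFunc K) F]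
  [IsScalarTower K (RatFunc K) F] [Algebra K[X] F] [IsScalarTower K[X] (RatFunc K) F]
  [FiniteDimensional (RatFunc K) F] [CharZero K] [IsAlgClosed K]

/-- `B ∩ B_∞` as a `K`-subspace of `F`. -/
def L0 : Submodule K F :=
  (Subalgebra.toSubmodule (Bfin K F)).restrictScalars K ⊓
    (Subalgebra.toSubmodule (Binf K F)).restrictScalars K

theorem mem_L0 (v : F) : v ∈ L0 K F ↔ (IsIntegral K[X] v ∧ IsIntegral (Oinf K) v) := by
  simp only [L0, Submodule.mem_inf, Submodule.restrictScalars_mem, Subalgebra.mem_toSubmodule,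
    mem_integralClosure_iff]

/-- The statement of G3: `HolF` in terms of the trace duals. -/
def HolStatement : Prop :=
  ∀ f : F, f ∈ HolF K (xF K F) ↔
    (f ∈ (Algebra.traceForm (RatFunc K) F).dualSubmodule
        (Subalgebra.toSubmodule (integralClosure K[X] F)) ∧
      ((RatFunc.X : RatFunc K) ^ 2 • f) ∈ (Algebra.traceForm (RatFunc K) F).dualSubmodule
        (Subalgebra.toSubmodule (integralClosure (Oinf K) F)))

/-- The statement of DW-d: `2 Σ d_i = deg 𝔇_fin + deg 𝔇_inf` for every normal basis. -/
def DWdStatement : Prop :=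
  ∀ (u : Basis (Fin (finrank (RatFunc K) F)) (RatFunc K) F)
    (d : Fin (finrank (RatFunc K) F) → ℤ),
    Submodule.span K[X] (Set.range u) = Subalgebra.toSubmodule (integralClosure K[X] F) →
    Submodule.span (Oinf K) (Set.range (LatticeDims.scaled u d)) =
      Subalgebra.toSubmodule (integralClosure (Oinf K) F) →
    2 * ∑ i, d i =
      (Multiset.card (normalizedFactors (differentIdeal K[X] (Bfin K F))) : ℤ)
        + Multiset.card (normalizedFactors (differentIdeal (Oinf K) (Binf K F)))

variable {K F}

/-- **T1 (RatFunc setting, modulo the three inputs).** -/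
theorem finrank_HolF_eq_genus_of [HasCanonicalDivisor (K := K) (F := F)]
    (hF : IsFunctionFieldOver K (xF K F)) (hInf : InfDict K F) (hHol : HolStatement K F)
    (hDW : DWdStatement K F) (hn : finrank (RatFunc K) F = degOver K (xF K F)) :
    finrank K (HolF K (xF K F)) = genus K F := by
  have h1 : finrank K (L0 K F) = 1 := T1Const.finrank_eq_one (L0 K F) (mem_L0 K F)
  obtain ⟨u, d, hu, hd, hfin, -, -⟩ :=
    NormalBasisGlue.dedekind_weber_finrank (L0 K F) (HolF K (xF K F)) (mem_L0 K F) hHol h1
  have h2 := hDW u d hu hd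
  have h3 := finsum_ordDifferential_D hF hInf
  rw [genus_eq_of_finsum hF, h3, ← h2, ← hn]
  have h4 : (2 * ∑ i, d i - 2 * (finrank (RatFunc K) F : ℤ) + 2) =
      2 * (finrank K (HolF K (xF K F)) : ℤ) := by
    rw [hfin]; ring
  rw [h4]
  omega

end

end Fermat.Agent.S20.T1
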