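/-
S20 / T1 package DW-d (helper53): the exact `T1/Skeleton.lean` statement
`finrank_quotient_different_add`, from `DiscDegreeX.finrank_different_add_finrank_different`.
-/
import Fermat.Agent.S20.T1.Setup
import Fermat.Agent.S20.LatticeDims
import Fermat.Agent.S20.DiscDegreeX

set_option autoImplicit false
set_option linter.unusedSectionVars false

open Polynomial
open scoped Classical

noncomputable section

namespace Fermat.Agent.S20.T1

open Fermat.Agent.S20.NormalBasis (Oinf)
open Fermat.Agent.S20.LatticeDims (scaled)

variable (K F : Type*) [Field K] [IsAlgClosed K] [CharZero K] [Field F] [Algebra K F]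
  [Algebra (RatFunc K) F] [IsScalarTower K (RatFunc K) F] [Algebra K[X] F]
  [IsScalarTower K[X] (RatFunc K) F] [FiniteDimensional (RatFunc K) F]

section DWd

/-- a basis of a subalgebra from a spanning basis of the ambient space -/
def basisOfSpanEq {A : Type*} [CommRing A] [IsDomain A] [Algebra A (RatFunc K)] [Algebra A F]
    [IsScalarTower A (RatFunc K) F] [Module.IsTorsionFree A (RatFunc K)]
    (S : Subalgebra A F) {n : ℕ} (u : Module.Basis (Fin n) (RatFunc K) F)
    (hu : Submodule.span A (Set.range u) = Subalgebra.toSubmodule S) :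
    Module.Basis (Fin n) A S :=
  (u.restrictScalars A).map ((LinearEquiv.ofEq _ _ hu).trans (Subalgebra.toSubmoduleEquiv S))

theorem basisOfSpanEq_apply {A : Type*} [CommRing A] [IsDomain A] [Algebra A (RatFunc K)]
    [Algebra A F] [IsScalarTower A (RatFunc K) F] [Module.IsTorsionFree A (RatFunc K)]
    (S : Subalgebra A F) {n : ℕ} (u : Module.Basis (Fin n) (RatFunc K) F)
    (hu : Submodule.span A (Set.range u) = Subalgebra.toSubmodule S) (i : Fin n) :
    ((basisOfSpanEq K F S u hu i : S) : F) = u i := by
  rw [basisOfSpanEq, Module.Basis.map_apply, LinearEquiv.trans_apply]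
  exact Module.Basis.restrictScalars_apply A u i

theorem finrank_quotient_different_add {n : ℕ} (u : Module.Basis (Fin n) (RatFunc K) F)
    (d : Fin n → ℤ)
    (hu : Submodule.span K[X] (Set.range u) = Subalgebra.toSubmodule (Bfin K F))
    (hd : Submodule.span (Oinf K) (Set.range (scaled u d)) = Subalgebra.toSubmodule (Binf K F)) :
    (Module.finrank K (Bfin K F ⧸ differentIdeal K[X] (Bfin K F)) : ℤ) +
      Module.finrank K (Binf K F ⧸ differentIdeal (Oinf K) (Binf K F)) = 2 * ∑ i, d i := by
  have h := DiscDegreeX.finrank_different_add_finrank_different (k := K) (F := F)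
    (B := Bfin K F) (Binf := Binf K F) u d
    (basisOfSpanEq K F (Bfin K F) u hu) (fun i => basisOfSpanEq_apply K F (Bfin K F) u hu i)
    (basisOfSpanEq K F (Binf K F) (scaled u d) hd)
    (fun i => by
      rw [← LatticeDims.scaled_apply]
      exact basisOfSpanEq_apply K F (Binf K F) (scaled u d) hd i)
  exact h

end DWd

end Fermat.Agent.S20.T1
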