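import Mathlib
import Fermat.Agent.S20.T1.Setup
import Fermat.Agent.S20.RamCountPoly
import Fermat.Agent.S20.TameDual79

/-!
# S20 / T1: total exponents of the two differents in the T1 (RatFunc) setting (helper31)

Instantiation of `RamCountPoly` for `Bfin K F = integralClosure K[X] F` and
`Binf K F = integralClosure (Oinf K) F` of `T1/Setup.lean`.

* `finsum_count_eq_card` : `∑ᶠ P : HeightOneSpectrum R, count P.asIdeal (normalizedFactors I)
  = card (normalizedFactors I)` (so `Skeleton.ramSum A R = card (normalizedFactors 𝔇)`).
* `surjective_algebraMap_residue_Oinf`, `residue_surjective_Bfin`, `residue_surjective_Binf` :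
  all residue fields are `K`.
* `card_normalizedFactors_different_Bfin` : `deg 𝔇(Bfin) = ∑_{c ∈ S} (n - #{P ∣ (X - c)})`.
* `card_normalizedFactors_different_Binf` : `deg 𝔇(Binf) = n - #{P ∣ 𝔪_∞}`.
-/

set_option autoImplicit false
set_option linter.unusedSectionVars false

open Polynomial IsDedekindDomain Module UniqueFactorizationMonoid Ideal
open scoped Classical

noncomputable section

namespace Fermat.Agent.S20.T1.RamCountT1

open Fermat.Agent.S20.NormalBasis (Oinf)
open Fermat.Agent.S20.T1

attribute [local instance] FractionRing.liftAlgebra FractionRing.isScalarTower_liftAlgebra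
  Ideal.Quotient.field

section Generic

/-- For a nonzero ideal of a Dedekind domain, the sum over all height one primes of the
multiplicities is the number of prime factors. -/
theorem finsum_count_eq_card {R : Type*} [CommRing R] [IsDedekindDomain R] (I : Ideal R) :
    ∑ᶠ P : HeightOneSpectrum R, (normalizedFactors I).count P.asIdeal
      = Multiset.card (normalizedFactors I) := by
  classical
  let φ : {J // J ∈ (normalizedFactors I).toFinset} → HeightOneSpectrum R := fun J =>
    ⟨J.1, Ideal.isPrime_of_prime (prime_of_normalized_factor J.1 (Multiset.mem_toFinset.mp J.2)),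
      (prime_of_normalized_factor J.1 (Multiset.mem_toFinset.mp J.2)).ne_zero⟩
  have hφ : Function.Injective φ := by
    intro J J' h
    apply Subtype.ext
    exact congrArg HeightOneSpectrum.asIdeal h
  have hsupp : (Function.support fun P : HeightOneSpectrum R =>
      (normalizedFactors I).count P.asIdeal) ⊆
      ↑((normalizedFactors I).toFinset.attach.map ⟨φ, hφ⟩) := by
    intro P hP
    rw [Function.mem_support, Multiset.count_ne_zero] at hP
    rw [Finset.coe_map, Set.mem_image]
    refine ⟨⟨P.asIdeal, Multiset.mem_toFinset.mpr hP⟩, by simp, ?_⟩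
    rfl
  rw [finsum_eq_sum_of_support_subset _ hsupp, Finset.sum_map]
  simp only [Function.Embedding.coeFn_mk, φ]
  rw [Finset.sum_attach (normalizedFactors I).toFinset
    (fun J => (normalizedFactors I).count J)]
  exact Multiset.toFinset_sum_count_eq _

end Generic

section T1

variable (K F : Type*) [Field K] [IsAlgClosed K] [CharZero K] [Field F] [Algebra K F]
  [Algebra (RatFunc K) F] [IsScalarTower K (RatFunc K) F] [Algebra K[X] F]
  [IsScalarTower K[X] (RatFunc K) F] [FiniteDimensional (RatFunc K) F]

theorem isSeparable_fractionRing_Bfin :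
    Algebra.IsSeparable (FractionRing K[X]) (FractionRing (Bfin K F)) :=
  Fermat.Agent.S20.TameDual79.isSeparable_fractionRing K[X] (RatFunc K) F (Bfin K F)

theorem isSeparable_fractionRing_Binf :
    Algebra.IsSeparable (FractionRing (Oinf K)) (FractionRing (Binf K F)) :=
  Fermat.Agent.S20.TameDual79.isSeparable_fractionRing (Oinf K) (RatFunc K) F (Binf K F)

theorem finrank_Bfin : finrank K[X] (Bfin K F) = finrank (RatFunc K) F :=
  (IsFractionRing.finrank_eq K[X] (RatFunc K) (Bfin K F) F).symm

theorem finrank_Binf : finrank (Oinf K) (Binf K F) = finrank (RatFunc K) F :=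
  (IsFractionRing.finrank_eq (Oinf K) (RatFunc K) (Binf K F) F).symm

end T1

section OinfRes

variable (K : Type*) [Field K]

theorem isMaximal_mInf : (Fermat.Agent.S20.NormalBasis.mInf (K := K)).IsMaximal := by
  apply Ideal.Quotient.maximal_of_isField
  exact MulEquiv.isField (Field.toIsField K)
    (RingEquiv.ofBijective _ (Fermat.Agent.S20.NormalBasis.bijective_mk_comp_CInf (K := K))).symm.toMulEquiv

theorem mInf_eq_maximalIdeal :
    Fermat.Agent.S20.NormalBasis.mInf (K := K) = IsLocalRing.maximalIdeal (Oinf K) :=
  IsLocalRing.eq_maximalIdeal (isMaximal_mInf K)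

/-- The residue field of `Oinf K` is `K` (for the `K`-algebra structure `T1.algebraOinf`). -/
theorem surjective_algebraMap_residue_Oinf :
    Function.Surjective (algebraMap K (Oinf K ⧸ IsLocalRing.maximalIdeal (Oinf K))) := by
  intro y
  obtain ⟨f, rfl⟩ := Ideal.Quotient.mk_surjective y
  obtain ⟨c, hc⟩ := Fermat.Agent.S20.NormalBasis.exists_C_sub_isNeg f.2
  refine ⟨c, ?_⟩
  rw [IsScalarTower.algebraMap_apply K (Oinf K) (Oinf K ⧸ IsLocalRing.maximalIdeal (Oinf K)),
    Ideal.Quotient.algebraMap_eq, Ideal.Quotient.eq, ← mInf_eq_maximalIdeal, Fermat.Agent.S20.NormalBasis.mem_mInf]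
  have : ((algebraMap K (Oinf K) c - f : Oinf K) : RatFunc K)
      = -((f : RatFunc K) - RatFunc.C c) := by
    rw [← RatFunc.algebraMap_eq_C]
    simp [coe_algebraMap_Oinf]
  rw [this]
  exact hc.neg

end OinfRes

section T1Main

variable (K F : Type*) [Field K] [IsAlgClosed K] [CharZero K] [Field F] [Algebra K F]
  [Algebra (RatFunc K) F] [IsScalarTower K (RatFunc K) F] [Algebra K[X] F]
  [IsScalarTower K[X] (RatFunc K) F] [FiniteDimensional (RatFunc K) F]

/-- all residue fields of `Bfin` are `K`. -/
theorem residue_surjective_Bfin (P : Ideal (Bfin K F)) (hP : P.IsMaximal) :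
    Function.Surjective (algebraMap K (Bfin K F ⧸ P)) :=
  Fermat.Agent.S20.RamCountPoly.poly_hres K (Bfin K F) P hP

/-- all residue fields of `Binf` are `K`. -/
theorem residue_surjective_Binf (P : Ideal (Binf K F)) (hP : P.IsMaximal) :
    Function.Surjective (algebraMap K (Binf K F ⧸ P)) :=
  Fermat.Agent.S20.RamCountPoly.local_hres K (Oinf K) (Binf K F)
    (surjective_algebraMap_residue_Oinf K) P hP

/-- **finite part**: total exponent of the different of `Bfin / K[X]`. -/
theorem card_normalizedFactors_different_Bfin (S : Finset K)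
    (hS : ∀ c ∉ S, (IsDedekindDomain.primesOverFinset (span {X - C c} : Ideal K[X]) (Bfin K F)).card
      = finrank (RatFunc K) F) :
    (Multiset.card (normalizedFactors (differentIdeal K[X] (Bfin K F))) : ℤ)
      = ∑ c ∈ S, ((finrank (RatFunc K) F : ℤ)
          - (IsDedekindDomain.primesOverFinset (span {X - C c} : Ideal K[X]) (Bfin K F)).card) := by
  have := isSeparable_fractionRing_Bfin K F
  have h := Fermat.Agent.S20.RamCountPoly.poly_card_normalizedFactors_differentIdeal K (Bfin K F) S
    (by intro c hc; rw [finrank_Bfin]; exact hS c hc)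
  rwa [finrank_Bfin] at h

/-- **infinite part**: total exponent of the different of `Binf / Oinf`. -/
theorem card_normalizedFactors_different_Binf :
    (Multiset.card (normalizedFactors (differentIdeal (Oinf K) (Binf K F))) : ℤ)
      = (finrank (RatFunc K) F : ℤ)
          - (IsDedekindDomain.primesOverFinset (IsLocalRing.maximalIdeal (Oinf K)) (Binf K F)).card := by
  have := isSeparable_fractionRing_Binf K F
  have : IsDiscreteValuationRing (Oinf K) := by unfold Oinf; infer_instance
  have h := Fermat.Agent.S20.RamCountPoly.dvr_card_normalizedFactors_differentIdeal K (Oinf K)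
    (Binf K F) (surjective_algebraMap_residue_Oinf K)
  rwa [finrank_Binf] at h

end T1Main

end Fermat.Agent.S20.T1.RamCountT1
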