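/-
S20 / T1-GLUE (helper92): `DWdStatement K F` (2 Σ d_i = deg 𝔇_fin + deg 𝔇_inf), from
helper53's `T1.finrank_quotient_different_add` (DW-d), helper9's `QuotLen9` (RING) and helper31's
`RamCountT1` (residue fields).
No sorry.
-/
import Fermat.Agent.S20.T1.Assembly
import Fermat.Agent.S20.T1.DWd
import Fermat.Agent.S20.QuotLen9
import Fermat.Agent.S20.T1.RamCountT1

set_option autoImplicit false
set_option linter.unusedSectionVars false

open Polynomial AlgebraicCurve IsDedekindDomain UniqueFactorizationMonoid Module
open scoped Classical

noncomputable section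

namespace Fermat.Agent.S20.T1

open Fermat.Agent.S20.NormalBasis (Oinf)

section

variable (K F : Type*) [Field K] [Field F] [Algebra K F] [Algebra (RatFunc K) F]
  [IsScalarTower K (RatFunc K) F] [Algebra K[X] F] [IsScalarTower K[X] (RatFunc K) F]
  [FiniteDimensional (RatFunc K) F] [CharZero K] [IsAlgClosed K]

theorem differentIdeal_Binf_ne_bot : differentIdeal (Oinf K) (Binf K F) ≠ ⊥ :=
  T1Dual86.differentIdeal_ne_bot' (Oinf K) (RatFunc K) F

theorem dwdStatement : DWdStatement K F := by
  intro u d hu hd
  have h := finrank_quotient_different_add K F u d hu hd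
  rw [QuotLen9.finrank_quotient_eq_card_normalizedFactors
      (RamCountT1.residue_surjective_Bfin K F) (differentIdeal_Bfin_ne_bot K F),
    QuotLen9.finrank_quotient_eq_card_normalizedFactors
      (RamCountT1.residue_surjective_Binf K F) (differentIdeal_Binf_ne_bot K F)] at h
  exact h.symm

end

end Fermat.Agent.S20.T1
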