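import Mathlib
import Fermat.Agent.S20.T1.Setup

/-!
# S20 / T1 glue, package T1-FF (helper63): the RatFunc setting is an S24 function field

`isFunctionFieldOver_xF : IsFunctionFieldOver K (xF K F)` and
`degOver_xF : degOver K (xF K F) = finrank (RatFunc K) F`
(exact statements of `T1/Skeleton.lean`, section FF; `IsAlgClosed`/`CharZero` not needed).
-/

set_option autoImplicit false
set_option linter.unusedSectionVars false

open Polynomial IntermediateField

namespace Fermat.Agent.S20.T1

open Fermat.Agent.S24

variable (K F : Type*) [Field K] [Field F] [Algebra K F]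
  [Algebra (RatFunc K) F] [IsScalarTower K (RatFunc K) F] [Algebra K[X] F]
  [IsScalarTower K[X] (RatFunc K) F]

theorem transcendental_xF : Transcendental K (xF K F) := by
  unfold xF
  rw [transcendental_algebraMap_iff (algebraMap (RatFunc K) F).injective]
  exact RatFunc.transcendental_X

/-- The `K[X]`-algebra structure of `F` is evaluation at `xF`. -/
theorem algebraMap_poly_eq_aeval_xF (p : K[X]) :
    algebraMap K[X] F p = Polynomial.aeval (xF K F) p := by
  have h : (IsScalarTower.toAlgHom K K[X] F) = Polynomial.aeval (xF K F) := by
    apply Polynomial.algHom_ext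
    rw [IsScalarTower.coe_toAlgHom', Polynomial.aeval_X]
    exact algebraMap_poly_X K F
  exact DFunLike.congr_fun h p

/-- The isomorphism `RatFunc K ≃ K⟮xF⟯` is compatible with the two maps to `F`. -/
theorem coe_algEquivOfTranscendental (r : RatFunc K) :
    ((RatFunc.algEquivOfTranscendental (xF K F) (transcendental_xF K F) r : K⟮xF K F⟯) : F) =
      algebraMap (RatFunc K) F r := by
  have h : ((IntermediateField.val K⟮xF K F⟯).toRingHom.comp
      ((RatFunc.algEquivOfTranscendental (xF K F) (transcendental_xF K F)).toAlgHom.toRingHom)) =
      algebraMap (RatFunc K) F := by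
    apply IsLocalization.ringHom_ext (nonZeroDivisors K[X])
    refine RingHom.ext fun p => ?_
    show ((RatFunc.algEquivOfTranscendental (xF K F) (transcendental_xF K F)
      (algebraMap K[X] (RatFunc K) p) : K⟮xF K F⟯) : F) =
        algebraMap (RatFunc K) F (algebraMap K[X] (RatFunc K) p)
    rw [RatFunc.algEquivOfTranscendental_algebraMap,
      ← IsScalarTower.algebraMap_apply K[X] (RatFunc K) F, algebraMap_poly_eq_aeval_xF,
      ← IntermediateField.coe_val, ← Polynomial.aeval_algHom_apply]
    simp
  exact DFunLike.congr_fun h r

variable [FiniteDimensional (RatFunc K) F]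

theorem isFunctionFieldOver_xF : IsFunctionFieldOver K (xF K F) where
  transcendental := transcendental_xF K F
  finite :=
    Module.Finite.of_equiv_equiv (A₁ := RatFunc K) (B₁ := F) (A₂ := K⟮xF K F⟯) (B₂ := F)
      (RatFunc.algEquivOfTranscendental (xF K F) (transcendental_xF K F)).toRingEquiv
      (RingEquiv.refl F) (by
        ext r
        exact coe_algEquivOfTranscendental K F r)

theorem degOver_xF : degOver K (xF K F) = Module.finrank (RatFunc K) F := by
  unfold degOver
  symm
  exact Algebra.finrank_eq_of_equiv_equiv
    (RatFunc.algEquivOfTranscendental (xF K F) (transcendental_xF K F)).toRingEquiv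
    (RingEquiv.refl F) (by
      ext r
      exact coe_algEquivOfTranscendental K F r)

end Fermat.Agent.S20.T1
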