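import Mathlib
import Fermat.Agent.S24.Defs
import Fermat.Agent.S24.PlaceDedekind
import Fermat.Agent.S24.PlaceLocal
import Fermat.Agent.S24.DedekindModel
import Fermat.Agent.S24.Pkg_FF1a
import Fermat.Agent.S24.Pkg_FF3_86
import Fermat.Agent.S20.TameDual79
import Fermat.Agent.S20.HolDef
import Fermat.Agent.S20.T1.Setup
import Fermat.Agent.S20.T1.FF

/-!
# S20 / T1 glue, package T1-HOL (helper63)

`mem_HolF_iff` (exact statement of `T1/Skeleton.lean`, section HOL): in the RatFunc setting,
`f • dx` is regular at every place iff `f` lies in the trace dual of `Bfin` and `X² f` lies in the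
trace dual of `Binf`.

Auxiliary lemmas live in the sub-namespace `Fermat.Agent.S20.T1.Hol`:
* `valuation_generator`: `P ∩ A = (y)`  ⟹  `v_P(y) = exp (-e_P)`;
* `regular_iff_mem_traceDual`: generic core (tame trace dual ↔ regularity of `f • ω₀`);
* `ordDifferential_D_fin`, `fin_regular_iff`: the finite places;
* `ord_algebraMap_ratFunc`: at a pole `v` of `x`, `ord_v (g(x)) = deg g * ord_v x`;
* `under_inf`, `exists_inf_prime`, `ord_xF_inf`, `inf_regular_iff`: the infinite places.
-/

set_option autoImplicit false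
set_option linter.style.haveILetI false
set_option linter.unusedSectionVars false

open AlgebraicCurve IsDedekindDomain IsDedekindDomain.HeightOneSpectrum KaehlerDifferential
open scoped WithZero

namespace Fermat.Agent.S20.T1

namespace Hol

section Generic

variable {A B F : Type*} [CommRing A] [CommRing B] [Field F]
  [Algebra A B] [Algebra B F] [Algebra A F] [IsScalarTower A B F]
  [IsDomain A] [IsDedekindDomain B] [Module.IsTorsionFree A B] [IsFractionRing B F]

/-- If `P ∩ A = (y)` with `y ≠ 0`, then `v_P(y) = exp (-e_P)`. -/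
theorem valuation_generator (P : HeightOneSpectrum B) (y : A) (hy0 : y ≠ 0)
    (hy : P.asIdeal.under A = Ideal.span {y}) :
    P.valuation F (algebraMap A F y) = WithZero.exp (-(P.asIdeal.ramificationIdx A : ℤ)) := by
  set b : B := algebraMap A B y with hb
  have hb0 : b ≠ 0 := by
    rw [hb, Ne, FaithfulSMul.algebraMap_eq_zero_iff]
    exact hy0
  rw [IsScalarTower.algebraMap_apply A B F, valuation_of_algebraMap]
  have hne : P.intValuation b ≠ 0 := P.intValuation_ne_zero b hb0
  obtain ⟨m, hm⟩ : ∃ m : ℤ, P.intValuation b = WithZero.exp m :=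
    ⟨WithZero.log (P.intValuation b), (WithZero.exp_log hne).symm⟩
  have hm0 : m ≤ 0 := by
    have := P.intValuation_le_one b
    rwa [hm, ← WithZero.exp_zero, WithZero.exp_le_exp] at this
  have hmem : ∀ n : ℕ, b ∈ P.asIdeal ^ n ↔ (n : ℤ) ≤ -m := by
    intro n
    rw [← intValuation_le_pow_iff_mem, hm, WithZero.exp_le_exp]
    omega
  have hmap : (Ideal.span {y}).map (algebraMap A B) = Ideal.span {b} := by
    rw [Ideal.map_span, Set.image_singleton]
  have hle : ∀ n : ℕ, (Ideal.span {y}).map (algebraMap A B) ≤ P.asIdeal ^ n ↔ (n : ℤ) ≤ -m := by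
    intro n
    rw [hmap, Ideal.span_singleton_le_iff_mem, hmem]
  have hspec : (Ideal.span {y}).ramificationIdx' P.asIdeal = (-m).toNat := by
    apply Ideal.ramificationIdx'_spec
    · rw [hle]; omega
    · rw [hle]; omega
  have hlies : P.asIdeal.LiesOver (Ideal.span {y}) := ⟨hy.symm⟩
  have hspan0 : (Ideal.span {y} : Ideal A) ≠ ⊥ := by
    rw [Ne, Ideal.span_singleton_eq_bot]; exact hy0
  have := Ideal.ramificationIdx'_eq_ramificationIdx (Ideal.span {y}) P.asIdeal hspan0
  rw [← this, hspec, hm]
  congr 1
  omega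

end Generic

section Dual

variable {K : Type*} [Field K] [CharZero K]
variable (A E F B : Type*) [CommRing A] [Field E] [CommRing B] [Field F]
  [Algebra A E] [Algebra B F] [Algebra A B] [Algebra E F] [Algebra A F]
  [IsScalarTower A E F] [IsScalarTower A B F]
  [IsFractionRing A E] [IsFractionRing B F]
  [IsDedekindDomain A] [IsDedekindDomain B]
  [Module.IsTorsionFree A B] [Module.Finite A B]
  [FiniteDimensional E F] [Algebra.IsSeparable E F]
  [Algebra K A] [Algebra K B] [Algebra K F] [IsScalarTower K B F]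

/-- **Generic core of (G3).** If `ω₀` has order `e_P - 1` at the place of every height one prime
`P` of `B`, then for `f ≠ 0` the differential `f • ω₀` is regular at all these places iff `f`
lies in the trace dual of `B`. -/
theorem regular_iff_mem_traceDual (ω₀ : Ω[F⁄K])
    (hgen : ∀ P : HeightOneSpectrum B, (Place.ofHeightOneSpectrum (K := K) (F := F) P).DCoordGenerates)
    [Nontrivial Ω[F⁄K]]
    (hcoef : ∀ P : HeightOneSpectrum B,
      (Place.ofHeightOneSpectrum (K := K) (F := F) P).differentialCoeff ω₀ ≠ 0)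
    (hdict : ∀ P : HeightOneSpectrum B,
      (Place.ofHeightOneSpectrum (K := K) (F := F) P).ordDifferential ω₀ =
        (P.asIdeal.ramificationIdx A : ℤ) - 1)
    (f : F) (hf : f ≠ 0) :
    (∀ P : HeightOneSpectrum B,
        0 ≤ (Place.ofHeightOneSpectrum (K := K) (F := F) P).ordDifferential (f • ω₀)) ↔
      f ∈ Submodule.traceDual A E (1 : Submodule B F) := by
  rw [Fermat.Agent.S20.TameDual79.mem_traceDual_one_iff_valuation_of_field A E F B K f]
  refine forall_congr' fun P => ?_
  haveI := hgen P
  rw [Place.ordDifferential_smul _ hf (hcoef P), hdict P,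
    Fermat.Agent.S24.PlaceDedekind.ord_ofHeightOneSpectrum]
  have hne : P.valuation F f ≠ 0 := (Valuation.ne_zero_iff _).mpr hf
  rw [← WithZero.log_le_iff_le_exp hne]
  constructor <;> intro h <;> omega

end Dual

section Conv

variable {A E F : Type*} [CommRing A] [Field E] [Field F] [Algebra A E] [Algebra E F]
  [Algebra A F] [IsScalarTower A E F]

/-- The trace dual of the integral closure, in `Submodule.traceDual` form and in
`BilinForm.dualSubmodule` form. -/
theorem mem_traceDual_one_iff_mem_dualSubmodule (f : F) :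
    f ∈ Submodule.traceDual A E (1 : Submodule (integralClosure A F) F) ↔
      f ∈ (Algebra.traceForm E F).dualSubmodule
        (Subalgebra.toSubmodule (integralClosure A F)) := by
  rw [Submodule.mem_traceDual, LinearMap.BilinForm.mem_dualSubmodule]
  constructor
  · intro h y hy
    have hy1 : y ∈ (1 : Submodule (integralClosure A F) F) := by
      rw [Submodule.mem_one]
      exact ⟨⟨y, hy⟩, rfl⟩
    obtain ⟨a, ha⟩ := h y hy1
    rw [Submodule.mem_one]
    exact ⟨a, ha⟩
  · intro h y hy
    rw [Submodule.mem_one] at hy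
    obtain ⟨b, rfl⟩ := hy
    have := h (b : F) b.2
    rw [Submodule.mem_one] at this
    obtain ⟨a, ha⟩ := this
    exact ⟨a, ha⟩

end Conv

section Finite

open Polynomial Fermat.Agent.S24

variable {K F : Type*} [Field K] [IsAlgClosed K] [CharZero K] [Field F] [Algebra K F]
  [Algebra (RatFunc K) F] [IsScalarTower K (RatFunc K) F]
  [Algebra K[X] F] [IsScalarTower K[X] (RatFunc K) F]
  [FiniteDimensional (RatFunc K) F]

theorem algebraMap_poly_eq (p : K[X]) :
    algebraMap K[X] F p = algebraMap (RatFunc K) F (algebraMap K[X] (RatFunc K) p) :=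
  IsScalarTower.algebraMap_apply K[X] (RatFunc K) F p

theorem algebraMap_X_sub_C (c : K) :
    algebraMap K[X] F (X - C c) =
      algebraMap (RatFunc K) F RatFunc.X - algebraMap K F c := by
  rw [algebraMap_poly_eq, map_sub, RatFunc.algebraMap_X, RatFunc.algebraMap_C, map_sub,
    IsScalarTower.algebraMap_apply K (RatFunc K) F]
  rfl

/-- At the place of a height one prime `P` of the integral closure of `K[X]`, the differential
`dx` has order `e_P - 1`. -/
theorem ordDifferential_D_fin
    (hF : IsFunctionFieldOver K (algebraMap (RatFunc K) F RatFunc.X))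
    (P : HeightOneSpectrum (integralClosure K[X] F)) :
    (Place.ofHeightOneSpectrum (K := K) (F := F) P).ordDifferential
        (D K F (algebraMap (RatFunc K) F RatFunc.X)) =
      (P.asIdeal.ramificationIdx K[X] : ℤ) - 1 := by
  set x : F := algebraMap (RatFunc K) F RatFunc.X with hx
  set v := Place.ofHeightOneSpectrum (K := K) (F := F) P with hv
  have hord : ∀ g : F, v.ord g = -WithZero.log (P.valuation F g) :=
    fun g => Fermat.Agent.S24.PlaceDedekind.ord_ofHeightOneSpectrum P g
  -- `x` is integral
  have hxpoly : x = algebraMap K[X] F X := by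
    rw [algebraMap_poly_eq, RatFunc.algebraMap_X]
  have hval_poly : ∀ p : K[X], P.valuation F (algebraMap K[X] F p) ≤ 1 := by
    intro p
    rw [IsScalarTower.algebraMap_apply K[X] (integralClosure K[X] F) F]
    exact P.valuation_le_one _
  have hx0 : x ≠ 0 := by
    rw [hx, Ne, map_eq_zero]; exact RatFunc.X_ne_zero
  have hxord : 0 ≤ v.ord x := by
    rw [hord, hxpoly]
    have h1 := hval_poly X
    have hne : P.valuation F (algebraMap K[X] F X) ≠ 0 := by
      rw [← hxpoly]; exact (Valuation.ne_zero_iff _).mpr hx0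
    have : WithZero.log (P.valuation F (algebraMap K[X] F X)) ≤ 0 := by
      rw [WithZero.log_le_iff_le_exp hne, WithZero.exp_zero]; exact h1
    omega
  -- the centre
  obtain ⟨c, hc⟩ : ∃ c : K, v ∈ placesOver x c := by
    rcases exists_center hF v with h | h
    · exfalso
      have : v.ord x < 0 := h
      omega
    · exact h
  have hc' : 0 < v.ord (x - algebraMap K F c) := hc
  rw [ordDifferential_D_of_pos hF v c hc]
  -- `P ∩ K[X] = (X - c)`
  have hxc : x - algebraMap K F c = algebraMap K[X] F (X - C c) := (algebraMap_X_sub_C c).symm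
  have hxc0 : x - algebraMap K F c ≠ 0 := by
    intro h0; rw [h0, v.ord_zero] at hc'; exact lt_irrefl _ hc'
  have hmem : algebraMap K[X] (integralClosure K[X] F) (X - C c) ∈ P.asIdeal := by
    apply (valuation_lt_one_iff_mem (K := F) P _).mp
    have hcoe : algebraMap (integralClosure K[X] F) F
        (algebraMap K[X] (integralClosure K[X] F) (X - C c)) = x - algebraMap K F c := by
      rw [← IsScalarTower.algebraMap_apply, ← hxc]
    change P.valuation F (algebraMap (integralClosure K[X] F) F
        (algebraMap K[X] (integralClosure K[X] F) (X - C c))) < 1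
    rw [hcoe]
    have hne : P.valuation F (x - algebraMap K F c) ≠ 0 := (Valuation.ne_zero_iff _).mpr hxc0
    rw [hord] at hc'
    have : WithZero.log (P.valuation F (x - algebraMap K F c)) < 0 := by omega
    rwa [WithZero.log_lt_iff_lt_exp hne, WithZero.exp_zero] at this
  have hunder : P.asIdeal.under K[X] = Ideal.span {X - C c} := by
    have hmax : (Ideal.span {X - C c} : Ideal K[X]).IsMaximal :=
      PrincipalIdealRing.isMaximal_of_irreducible (irreducible_X_sub_C c)
    have hle : Ideal.span {X - C c} ≤ P.asIdeal.under K[X] := by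
      rw [Ideal.span_singleton_le_iff_mem, Ideal.under_def, Ideal.mem_comap]
      exact hmem
    have hne : P.asIdeal.under K[X] ≠ ⊤ := Ideal.IsPrime.ne_top inferInstance
    exact (hmax.eq_of_le hne hle).symm
  have hgen := valuation_generator (F := F) P (X - C c) (X_sub_C_ne_zero c) hunder
  rw [hord, hxc, hgen, WithZero.log_exp]
  ring

/-- A valuation subring containing `K` and `x` contains the image of `K[X]`. -/
theorem algebraMap_poly_mem (V : ValuationSubring F) (hK : ∀ a : K, algebraMap K F a ∈ V)
    (hx : algebraMap (RatFunc K) F RatFunc.X ∈ V) (p : K[X]) : algebraMap K[X] F p ∈ V := by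
  induction p using Polynomial.induction_on' with
  | add p q hp hq => rw [map_add]; exact V.add_mem _ _ hp hq
  | monomial n a =>
    rw [← Polynomial.C_mul_X_pow_eq_monomial, map_mul, map_pow]
    refine V.mul_mem _ _ ?_ (pow_mem ?_ n)
    · have : algebraMap K[X] F (C a) = algebraMap K F a := by
        rw [IsScalarTower.algebraMap_apply K K[X] F]; rfl
      rw [this]; exact hK a
    · rw [algebraMap_poly_eq, RatFunc.algebraMap_X]; exact hx

/-- Every place at which `x` is regular comes from a height one prime of the integral closure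
of `K[X]`. -/
theorem exists_prime_of_ord_nonneg (v : Place K F)
    (hv : 0 ≤ v.ord (algebraMap (RatFunc K) F RatFunc.X)) :
    ∃ P : HeightOneSpectrum (integralClosure K[X] F),
      Place.ofHeightOneSpectrum (K := K) (F := F) P = v := by
  apply Fermat.Agent.S24.PlaceDedekind.exists_ofHeightOneSpectrum_eq v
  intro b
  refine Fermat.Agent.S24.DedekindModel.mem_of_isIntegral v.toValuationSubring
    (A := K[X]) ?_ b.2
  exact algebraMap_poly_mem v.toValuationSubring v.algebraMap_mem'
    (Fermat.Agent.S24.PlaceLocal.mem_of_ord_nonneg v hv)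

/-- Conversely `x` is regular at the place of every height one prime. -/
theorem ord_nonneg_of_prime (P : HeightOneSpectrum (integralClosure K[X] F)) :
    0 ≤ (Place.ofHeightOneSpectrum (K := K) (F := F) P).ord
      (algebraMap (RatFunc K) F RatFunc.X) := by
  apply Fermat.Agent.S24.PlaceLocal.ord_nonneg_of_mem
  show P.valuation F _ ≤ 1
  have : algebraMap (RatFunc K) F RatFunc.X = algebraMap K[X] F X := by
    rw [algebraMap_poly_eq, RatFunc.algebraMap_X]
  rw [this, IsScalarTower.algebraMap_apply K[X] (integralClosure K[X] F) F]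
  exact P.valuation_le_one _

/-- **(G3, finite part).** For `f ≠ 0`, the differential `f dx` is regular at all places where
`x` is regular iff `f` lies in the trace dual of the integral closure of `K[X]`. -/
theorem fin_regular_iff
    (hF : IsFunctionFieldOver K (algebraMap (RatFunc K) F RatFunc.X)) (f : F) (hf : f ≠ 0) :
    (∀ v : Place K F, 0 ≤ v.ord (algebraMap (RatFunc K) F RatFunc.X) →
        0 ≤ v.ordDifferential (f • D K F (algebraMap (RatFunc K) F RatFunc.X))) ↔
      f ∈ Submodule.traceDual K[X] (RatFunc K) (1 : Submodule (integralClosure K[X] F) F) := by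
  have hnt : Nontrivial Ω[F⁄K] := ⟨⟨_, 0, D_ne_zero hF⟩⟩
  have hcoef : ∀ v : Place K F,
      v.differentialCoeff (D K F (algebraMap (RatFunc K) F RatFunc.X)) ≠ 0 := by
    intro v h0
    haveI := dCoordGenerates hF v
    have h := v.differentialCoeff_smul_dCoord (D K F (algebraMap (RatFunc K) F RatFunc.X))
    rw [h0, zero_smul] at h
    exact D_ne_zero hF h.symm
  rw [← regular_iff_mem_traceDual (K := K) K[X] (RatFunc K) F (integralClosure K[X] F)
    (D K F (algebraMap (RatFunc K) F RatFunc.X)) (fun P => dCoordGenerates hF _)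
    (fun P => hcoef _) (fun P => ordDifferential_D_fin hF P) f hf]
  constructor
  · intro h P
    exact h _ (ord_nonneg_of_prime P)
  · intro h v hv
    obtain ⟨P, rfl⟩ := exists_prime_of_ord_nonneg v hv
    exact h P

end Finite

section Infinite

open Polynomial Fermat.Agent.S24
open Fermat.Agent.S20.NormalBasis (Oinf IsNeg mem_Oinf_iff)

variable {K F : Type*} [Field K] [IsAlgClosed K] [CharZero K] [Field F] [Algebra K F]
  [Algebra (RatFunc K) F] [IsScalarTower K (RatFunc K) F]
  [Algebra K[X] F] [IsScalarTower K[X] (RatFunc K) F]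
  [FiniteDimensional (RatFunc K) F]

/-- `1/X` as an element of `O_∞`. -/
noncomputable def tI (K : Type*) [Field K] : Oinf K :=
  ⟨(RatFunc.X : RatFunc K)⁻¹, by
    rw [mem_Oinf_iff]; right; rw [RatFunc.intDegree_inv, RatFunc.intDegree_X]; omega⟩

omit [IsAlgClosed K] [CharZero K] in
theorem coe_tI : ((tI K : Oinf K) : RatFunc K) = (RatFunc.X : RatFunc K)⁻¹ := rfl

omit [IsAlgClosed K] [CharZero K] in
theorem tI_ne_zero : tI K ≠ 0 := by
  intro h
  have := congrArg (Subtype.val) h
  rw [coe_tI] at this
  exact inv_ne_zero RatFunc.X_ne_zero this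

omit [IsAlgClosed K] [CharZero K] in
/-- Elements of `O_∞` of negative degree are divisible by `1/X`. -/
theorem tI_dvd_of_isNeg {g : Oinf K} (hg : IsNeg (g : RatFunc K)) : tI K ∣ g := by
  have hmem : (RatFunc.X : RatFunc K) * (g : RatFunc K) ∈ Oinf K := by
    rw [mem_Oinf_iff]
    rcases hg with h | h
    · left; rw [h, mul_zero]
    · right
      have hg0 : (g : RatFunc K) ≠ 0 := by
        intro h0; rw [h0] at h; simp at h
      rw [RatFunc.intDegree_mul RatFunc.X_ne_zero hg0, RatFunc.intDegree_X]
      omega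
  refine ⟨⟨_, hmem⟩, Subtype.ext ?_⟩
  show (g : RatFunc K) = (RatFunc.X : RatFunc K)⁻¹ * ((RatFunc.X : RatFunc K) * (g : RatFunc K))
  rw [← mul_assoc, inv_mul_cancel₀ RatFunc.X_ne_zero, one_mul]

omit [IsAlgClosed K] [CharZero K] in
/-- Elements of `O_∞` of degree zero are units. -/
theorem isUnit_of_not_isNeg {g : Oinf K} (hg : ¬ IsNeg (g : RatFunc K)) : IsUnit g := by
  have hg0 : (g : RatFunc K) ≠ 0 := fun h => hg (Or.inl h)
  have hdeg : (g : RatFunc K).intDegree = 0 := by
    have h1 := (mem_Oinf_iff.mp g.2).resolve_left hg0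
    have h2 : ¬ (g : RatFunc K).intDegree < 0 := fun h => hg (Or.inr h)
    omega
  have hinv : (g : RatFunc K)⁻¹ ∈ Oinf K := by
    rw [mem_Oinf_iff]; right; rw [RatFunc.intDegree_inv, hdeg]; simp
  rw [isUnit_iff_exists_inv]
  refine ⟨⟨_, hinv⟩, Subtype.ext ?_⟩
  show (g : RatFunc K) * (g : RatFunc K)⁻¹ = 1
  exact mul_inv_cancel₀ hg0

omit [IsAlgClosed K] [CharZero K] in
theorem not_isUnit_tI : ¬ IsUnit (tI K) := by
  intro h
  rw [isUnit_iff_exists_inv] at h
  obtain ⟨b, hb⟩ := h
  have hb' : (RatFunc.X : RatFunc K)⁻¹ * (b : RatFunc K) = 1 := congrArg Subtype.val hb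
  have hbX : (b : RatFunc K) = RatFunc.X := by
    have := congrArg (fun z => (RatFunc.X : RatFunc K) * z) hb'
    simpa [← mul_assoc, mul_inv_cancel₀ (RatFunc.X_ne_zero (K := K))] using this
  have hmem := b.2
  rw [hbX, mem_Oinf_iff] at hmem
  rcases hmem with h | h
  · exact RatFunc.X_ne_zero h
  · rw [RatFunc.intDegree_X] at h; omega

omit [IsAlgClosed K] [CharZero K] in
/-- The maximal ideal of `O_∞` is generated by `1/X`. -/
theorem maximalIdeal_Oinf_eq : IsLocalRing.maximalIdeal (Oinf K) = Ideal.span {tI K} := by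
  ext g
  rw [IsLocalRing.mem_maximalIdeal, mem_nonunits_iff, Ideal.mem_span_singleton]
  constructor
  · intro h
    by_contra hd
    exact h (isUnit_of_not_isNeg fun hneg => hd (tI_dvd_of_isNeg hneg))
  · rintro ⟨c, rfl⟩ hu
    exact not_isUnit_tI (isUnit_of_mul_isUnit_left hu)

/-- Every height one prime of `Binf` lies over `(1/X)`. -/
theorem under_inf (P : HeightOneSpectrum (Binf K F)) :
    P.asIdeal.under (Oinf K) = Ideal.span {tI K} := by
  rw [← maximalIdeal_Oinf_eq]
  have hprime : (P.asIdeal.under (Oinf K)).IsPrime := inferInstance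
  have hne : P.asIdeal.under (Oinf K) ≠ ⊥ := Ideal.under_ne_bot (Oinf K) P.ne_bot
  exact IsLocalRing.eq_maximalIdeal (hprime.isMaximal hne)

omit [IsAlgClosed K] [CharZero K] [Algebra K[X] F] [IsScalarTower K[X] (RatFunc K) F]
  [FiniteDimensional (RatFunc K) F] in
theorem algebraMap_tI : algebraMap (Oinf K) F (tI K) = (xF K F)⁻¹ := by
  rw [IsScalarTower.algebraMap_apply (Oinf K) (RatFunc K) F]
  show algebraMap (RatFunc K) F ((RatFunc.X : RatFunc K)⁻¹) = _
  rw [map_inv₀]; rfl

omit [IsAlgClosed K] [CharZero K] [Algebra K[X] F] [IsScalarTower K[X] (RatFunc K) F]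
  [FiniteDimensional (RatFunc K) F] in
/-- At a pole `v` of `x`: `ord_v (g(x)) = deg g * ord_v x` for every rational function `g ≠ 0`. -/
theorem ord_algebraMap_ratFunc (v : Place K F) (hv : v.ord (xF K F) < 0) {g : RatFunc K}
    (hg : g ≠ 0) : v.ord (algebraMap (RatFunc K) F g) = g.intDegree * v.ord (xF K F) := by
  classical
  set w : Valuation (RatFunc K) ℤᵐ⁰ := v.adicValuation.comap (algebraMap (RatFunc K) F) with hw
  have hx0 : xF K F ≠ 0 := by
    intro h; rw [h, v.ord_zero] at hv; exact lt_irrefl _ hv
  haveI : w.IsTrivialOn K := ⟨fun a ha => by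
    rw [hw, Valuation.comap_apply, ← IsScalarTower.algebraMap_apply K (RatFunc K) F]
    have h0 : v.ord (algebraMap K F a) = 0 := Fermat.Agent.S24.PlaceLocal.ord_algebraMap v a
    have hne : v.adicValuation (algebraMap K F a) ≠ 0 :=
      v.adicValuation_ne_zero ((map_ne_zero_iff _ (algebraMap K F).injective).mpr ha)
    unfold Place.ord at h0
    have : WithZero.log (v.adicValuation (algebraMap K F a)) = 0 := by omega
    rw [← WithZero.exp_log hne, this, WithZero.exp_zero]⟩
  have hX : w RatFunc.X = v.adicValuation (xF K F) := rfl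
  have hxne : v.adicValuation (xF K F) ≠ 0 := v.adicValuation_ne_zero hx0
  have hlt : 1 < w RatFunc.X := by
    rw [hX, ← WithZero.exp_zero, ← WithZero.lt_log_iff_exp_lt hxne]
    unfold Place.ord at hv
    omega
  have key := RatFunc.valuation_eq_valuation_X_zpow_intDegree_of_one_lt_valuation_X
    (v := w) hlt hg
  have key' : v.adicValuation (algebraMap (RatFunc K) F g) =
      v.adicValuation (xF K F) ^ g.intDegree := key
  unfold Place.ord
  rw [key', WithZero.log_zpow]
  simp only [smul_eq_mul]
  ring

/-- A place over `∞` contains `O_∞`. -/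
theorem algebraMap_Oinf_mem (v : Place K F) (hv : v.ord (xF K F) < 0) (g : Oinf K) :
    algebraMap (Oinf K) F g ∈ v.toValuationSubring := by
  apply Fermat.Agent.S24.PlaceLocal.mem_of_ord_nonneg
  rw [IsScalarTower.algebraMap_apply (Oinf K) (RatFunc K) F]
  by_cases hg : (g : RatFunc K) = 0
  · have : algebraMap (Oinf K) (RatFunc K) g = 0 := hg
    rw [this, map_zero, v.ord_zero]
  · have h1 : algebraMap (Oinf K) (RatFunc K) g = (g : RatFunc K) := rfl
    rw [h1, ord_algebraMap_ratFunc v hv hg]
    have hdeg := (mem_Oinf_iff.mp g.2).resolve_left hg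
    nlinarith

/-- Every place over `∞` comes from a height one prime of `Binf`. -/
theorem exists_inf_prime (v : Place K F) (hv : v.ord (xF K F) < 0) :
    ∃ P : HeightOneSpectrum (Binf K F), Place.ofHeightOneSpectrum (K := K) (F := F) P = v := by
  apply Fermat.Agent.S24.PlaceDedekind.exists_ofHeightOneSpectrum_eq v
  intro b
  exact Fermat.Agent.S24.DedekindModel.mem_of_isIntegral v.toValuationSubring
    (A := Oinf K) (algebraMap_Oinf_mem v hv) b.2

/-- At the place of a height one prime `P` of `Binf`: `ord x = - e_P`. -/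
theorem ord_xF_inf (P : HeightOneSpectrum (Binf K F)) :
    (Place.ofHeightOneSpectrum (K := K) (F := F) P).ord (xF K F) =
      -(P.asIdeal.ramificationIdx (Oinf K) : ℤ) := by
  have hgen := valuation_generator (F := F) P (tI K) tI_ne_zero (under_inf P)
  rw [algebraMap_tI] at hgen
  have h := Fermat.Agent.S24.PlaceDedekind.ord_ofHeightOneSpectrum (K := K) P ((xF K F)⁻¹)
  rw [hgen, WithZero.log_exp, Place.ord_inv] at h
  omega

theorem ord_xF_inf_neg (P : HeightOneSpectrum (Binf K F)) :
    (Place.ofHeightOneSpectrum (K := K) (F := F) P).ord (xF K F) < 0 := by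
  rw [ord_xF_inf]
  have : 0 < P.asIdeal.ramificationIdx (Oinf K) := Ideal.ramificationIdx_pos _ _
  omega

/-- The differential `x⁻² dx` has order `e_P - 1` at the place of `P`. -/
theorem ordDifferential_inf (P : HeightOneSpectrum (Binf K F)) :
    (Place.ofHeightOneSpectrum (K := K) (F := F) P).ordDifferential
        (((xF K F)⁻¹ ^ 2) • D K F (xF K F)) =
      (P.asIdeal.ramificationIdx (Oinf K) : ℤ) - 1 := by
  have hF := isFunctionFieldOver_xF K F
  set v := Place.ofHeightOneSpectrum (K := K) (F := F) P with hv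
  have hnt : Nontrivial Ω[F⁄K] := ⟨⟨_, 0, D_ne_zero hF⟩⟩
  haveI := dCoordGenerates hF v
  have hcoef : v.differentialCoeff (D K F (xF K F)) ≠ 0 := by
    intro h0
    have h := v.differentialCoeff_smul_dCoord (D K F (xF K F))
    rw [h0, zero_smul] at h
    exact D_ne_zero hF h.symm
  have hneg : v.ord (xF K F) < 0 := ord_xF_inf_neg P
  have hx0 : xF K F ≠ 0 := by
    intro h; rw [h, v.ord_zero] at hneg; exact lt_irrefl _ hneg
  have hc0 : (xF K F)⁻¹ ^ 2 ≠ 0 := pow_ne_zero _ (inv_ne_zero hx0)
  rw [Place.ordDifferential_smul v hc0 hcoef, ordDifferential_D_of_neg hF v hneg]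
  have h2 : v.ord ((xF K F)⁻¹ ^ 2) = -2 * v.ord (xF K F) := by
    rw [← zpow_natCast, Place.ord_zpow, Place.ord_inv]; push_cast; ring
  rw [h2, ord_xF_inf]
  ring

/-- **(G3, infinite part).** For `g ≠ 0`, the differential `g • x⁻² dx` is regular at all places
over `∞` iff `g` lies in the trace dual of `Binf`. -/
theorem inf_regular_iff (g : F) (hg : g ≠ 0) :
    (∀ v : Place K F, v.ord (xF K F) < 0 →
        0 ≤ v.ordDifferential (g • (((xF K F)⁻¹ ^ 2) • D K F (xF K F)))) ↔
      g ∈ Submodule.traceDual (Oinf K) (RatFunc K) (1 : Submodule (Binf K F) F) := by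
  have hF := isFunctionFieldOver_xF K F
  have hnt : Nontrivial Ω[F⁄K] := ⟨⟨_, 0, D_ne_zero hF⟩⟩
  have hcoef0 : ∀ v : Place K F, v.differentialCoeff (D K F (xF K F)) ≠ 0 := by
    intro v h0
    haveI := dCoordGenerates hF v
    have h := v.differentialCoeff_smul_dCoord (D K F (xF K F))
    rw [h0, zero_smul] at h
    exact D_ne_zero hF h.symm
  have hx0 : xF K F ≠ 0 := by
    unfold xF
    rw [Ne, map_eq_zero]; exact RatFunc.X_ne_zero
  have hc0 : (xF K F)⁻¹ ^ 2 ≠ 0 := pow_ne_zero _ (inv_ne_zero hx0)
  have hcoef : ∀ v : Place K F,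
      v.differentialCoeff (((xF K F)⁻¹ ^ 2) • D K F (xF K F)) ≠ 0 := by
    intro v
    haveI := dCoordGenerates hF v
    rw [Place.differentialCoeff_smul]
    exact mul_ne_zero hc0 (hcoef0 v)
  rw [← regular_iff_mem_traceDual (K := K) (Oinf K) (RatFunc K) F (Binf K F)
    (((xF K F)⁻¹ ^ 2) • D K F (xF K F)) (fun P => dCoordGenerates hF _)
    (fun P => hcoef _) (fun P => ordDifferential_inf P) g hg]
  constructor
  · intro h P
    exact h _ (ord_xF_inf_neg P)
  · intro h v hv
    obtain ⟨P, rfl⟩ := exists_inf_prime v hv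
    exact h P

end Infinite

end Hol

section Main

open Polynomial Fermat.Agent.S24
open Fermat.Agent.S20.NormalBasis (Oinf)

variable (K F : Type*) [Field K] [IsAlgClosed K] [CharZero K] [Field F] [Algebra K F]
  [Algebra (RatFunc K) F] [IsScalarTower K (RatFunc K) F] [Algebra K[X] F]
  [IsScalarTower K[X] (RatFunc K) F] [FiniteDimensional (RatFunc K) F]

/-- **PKG T1-HOL.** Regular differentials = intersection of the two trace duals. -/
theorem mem_HolF_iff (f : F) :
    f ∈ HolF K (xF K F) ↔
      (f ∈ (Algebra.traceForm (RatFunc K) F).dualSubmodule (Subalgebra.toSubmodule (Bfin K F)) ∧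
        ((RatFunc.X : RatFunc K) ^ 2 • f) ∈
          (Algebra.traceForm (RatFunc K) F).dualSubmodule
            (Subalgebra.toSubmodule (Binf K F))) := by
  by_cases hf : f = 0
  · subst hf
    refine ⟨fun _ => ⟨Submodule.zero_mem _, ?_⟩, fun _ => Submodule.zero_mem _⟩
    rw [smul_zero]; exact Submodule.zero_mem _
  have hF := isFunctionFieldOver_xF K F
  have hnt : Nontrivial Ω[F⁄K] := ⟨⟨_, 0, D_ne_zero hF⟩⟩
  have hcoef : ∀ v : Place K F, v.differentialCoeff (D K F (xF K F)) ≠ 0 := by
    intro v h0
    haveI := dCoordGenerates hF v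
    have h := v.differentialCoeff_smul_dCoord (D K F (xF K F))
    rw [h0, zero_smul] at h
    exact D_ne_zero hF h.symm
  have hx0 : xF K F ≠ 0 := by
    unfold xF
    rw [Ne, map_eq_zero]; exact RatFunc.X_ne_zero
  have hreg : ∀ v : Place K F, IsRegularAt v (xF K F) f ↔
      0 ≤ v.ordDifferential (f • D K F (xF K F)) := by
    intro v
    haveI := dCoordGenerates hF v
    rw [Place.ordDifferential_smul v hf (hcoef v)]
    unfold IsRegularAt
    constructor
    · rintro (h | h)
      · exact absurd h hf
      · exact h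
    · exact fun h => Or.inr h
  have hsplit : (∀ v : Place K F, IsRegularAt v (xF K F) f) ↔
      ((∀ v : Place K F, 0 ≤ v.ord (xF K F) → 0 ≤ v.ordDifferential (f • D K F (xF K F))) ∧
        (∀ v : Place K F, v.ord (xF K F) < 0 →
          0 ≤ v.ordDifferential (f • D K F (xF K F)))) := by
    constructor
    · intro h
      exact ⟨fun v _ => (hreg v).mp (h v), fun v _ => (hreg v).mp (h v)⟩
    · rintro ⟨h1, h2⟩ v
      rw [hreg]
      rcases le_or_gt 0 (v.ord (xF K F)) with h | h
      · exact h1 v h
      · exact h2 v h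
  rw [mem_HolF, hsplit]
  -- the finite part
  have hfin := Hol.fin_regular_iff (K := K) (F := F) hF f hf
  -- the infinite part
  have hg0 : xF K F ^ 2 * f ≠ 0 := mul_ne_zero (pow_ne_zero _ hx0) hf
  have hinf := Hol.inf_regular_iff (K := K) (F := F) (xF K F ^ 2 * f) hg0
  have hsm : ∀ ω : Ω[F⁄K], (xF K F ^ 2 * f) • (((xF K F)⁻¹ ^ 2) • ω) = f • ω := by
    intro ω
    rw [smul_smul]
    congr 1
    field_simp
  have hX2 : (RatFunc.X : RatFunc K) ^ 2 • f = xF K F ^ 2 * f := by
    rw [Algebra.smul_def, map_pow]; rfl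
  rw [hX2, ← Hol.mem_traceDual_one_iff_mem_dualSubmodule, ← Hol.mem_traceDual_one_iff_mem_dualSubmodule]
  refine and_congr hfin ?_
  rw [← hinf]
  simp only [hsm]

end Main

end Fermat.Agent.S20.T1
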