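/-
S20 / T1-GLUE (helper92): the dictionary on the infinite side (`InfDict K F`), from helper69's
`T1Inf69` (places over `∞` ↔ primes of `Binf`) and helper86's `T1Dual86.valuation_uniformizer_eq`.
No sorry.
-/
import Fermat.Agent.S20.T1.Degree
import Fermat.Agent.S20.T1Inf69

set_option autoImplicit false
set_option linter.unusedSectionVars false

open Polynomial AlgebraicCurve IsDedekindDomain KaehlerDifferential WithZero
  UniqueFactorizationMonoid
open scoped Classical

noncomputable section

namespace Fermat.Agent.S20.T1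

open Fermat.Agent.S20.NormalBasis (Oinf)
open Fermat.Agent.S24 Fermat.Agent.S24.PlaceDedekind

section

variable (K F : Type*) [Field K] [Field F] [Algebra K F] [Algebra (RatFunc K) F]
  [IsScalarTower K (RatFunc K) F] [Algebra K[X] F] [IsScalarTower K[X] (RatFunc K) F]
  [FiniteDimensional (RatFunc K) F] [CharZero K] [IsAlgClosed K]

theorem isMaximal_span_piInf :
    (Ideal.span {(T1Inf69.piInf : Oinf K)}).IsMaximal := by
  rw [← T1Inf69.mInf_eq_span, T1Inf69.mInf_eq_maximalIdeal]
  exact IsLocalRing.maximalIdeal.isMaximal _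

theorem algebraMap_piInf :
    algebraMap (Oinf K) F (T1Inf69.piInf : Oinf K) = (xF K F)⁻¹ := by
  rw [IsScalarTower.algebraMap_apply (Oinf K) (RatFunc K) F]
  show algebraMap (RatFunc K) F ((RatFunc.X : RatFunc K)⁻¹) = _
  rw [map_inv₀]
  rfl

theorem piInf_mem (P : HeightOneSpectrum (Binf K F)) :
    algebraMap (Oinf K) (Binf K F) (T1Inf69.piInf : Oinf K) ∈ P.asIdeal := by
  refine (P.valuation_lt_one_iff_mem (K := F) _).mp ?_
  show P.valuation F (algebraMap (Oinf K) F (T1Inf69.piInf : Oinf K)) < 1
  rw [algebraMap_piInf, map_inv₀]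
  have h := T1Inf69.one_lt_valuation_X (k := K) (F := F) P
  exact inv_lt_one_of_one_lt₀ h

theorem infDict : InfDict K F where
  exists_infPrime := fun v hv => T1Inf69.exists_placeOf_eq (k := K) (F := F) hv
  infPlace_mem := fun P => T1Inf69.placeOf_mem_placesOverInfty (k := K) (F := F) P
  ord_xF := fun P => by
    have hchar : CharZero (Oinf K ⧸ Ideal.span {(T1Inf69.piInf : Oinf K)}) :=
      TameDiff79.charZero_quotient_of_field_algebra K _ (isMaximal_span_piInf K).ne_top
    have h1 := T1Dual86.valuation_uniformizer_eq (Oinf K) (RatFunc K) F P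
      (t := (T1Inf69.piInf : Oinf K)) (isMaximal_span_piInf K) T1Inf69.piInf_ne_zero
      (piInf_mem K F P)
    have hx0 : xF K F ≠ 0 := by
      intro h
      have := T1Inf69.one_lt_valuation_X (k := K) (F := F) P
      change 1 < P.valuation F (xF K F) at this
      rw [h, map_zero] at this
      exact not_lt_of_ge zero_le this
    rw [algebraMap_piInf, T1Dual86.valuation_eq_exp_neg_ord K F P (inv_ne_zero hx0),
      Place.ord_inv] at h1
    have h2 := exp_injective h1
    omega

end

end Fermat.Agent.S20.T1
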