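/-
S20 / T1-GLUE (helper92): statements for an arbitrary function field
`hF : S24.IsFunctionFieldOver K x` (no RatFunc-algebra instances in the statement), obtained from
the RatFunc setting through helper63's `T1Setup` (`letI`).
No sorry.
-/
import Fermat.Agent.S20.T1.CanDiv
import Fermat.Agent.S20.T1Setup

set_option autoImplicit false
set_option linter.style.haveILetI false

open Polynomial AlgebraicCurve KaehlerDifferential

noncomputable section

namespace Fermat.Agent.S20

open Fermat.Agent.S24

variable {K F : Type*} [Field K] [Field F] [Algebra K F] [IsAlgClosed K] [CharZero K]

/-- **Existence of canonical divisors** for a function field in one variable over an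
algebraically closed field of characteristic zero. -/
theorem hasCanonicalDivisor_of_isFunctionFieldOver {x : F} (hF : IsFunctionFieldOver K x) :
    HasCanonicalDivisor (K := K) (F := F) := by
  letI := T1Setup.algRat hF.transcendental
  letI := T1Setup.algPoly (K := K) x
  haveI := T1Setup.isScalarTower_K hF.transcendental
  haveI := T1Setup.isScalarTower_poly hF.transcendental
  haveI := T1Setup.finiteDimensional_of hF
  have hx : T1.xF K F = x := T1Setup.algebraMap_X hF.transcendental
  exact T1.hasCanonicalDivisor (K := K) (F := F) (hx ▸ hF)

end Fermat.Agent.S20
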