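/-
S20 / T1-GLUE (helper92): **(T1)**  `finrank K (HolF K x) = genus K F`.

* `T1.finrank_HolF_eq_genus` : RatFunc setting (exact `T1/Skeleton.lean` ASM statement).
* `finrank_HolF_eq_genus_of_isFunctionFieldOver hF` : for any
  `hF : S24.IsFunctionFieldOver K x` (no RatFunc instances in the statement).

Inputs: `T1.mem_HolF_iff` (helper63, G3), `T1.infDict` (G2-inf: helper69 + helper86),
`T1.dwdStatement` (DW-d: helper53, helper9, helper31), `dedekind_weber_finrank` (helper58, helper63,
helper64), `T1Const` (helper63), `T1/FF.lean` (helper63), `T1Setup` (helper63).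
No sorry.
-/
import Fermat.Agent.S20.T1.Assembly
import Fermat.Agent.S20.T1.InfDictProof
import Fermat.Agent.S20.T1.DWdProof
import Fermat.Agent.S20.T1.Hol
import Fermat.Agent.S20.T1.FF
import Fermat.Agent.S20.T1.Transfer

set_option autoImplicit false
set_option linter.unusedSectionVars false
set_option linter.style.haveILetI false

open Polynomial AlgebraicCurve KaehlerDifferential Module

noncomputable section

namespace Fermat.Agent.S20.T1

open Fermat.Agent.S24

section

variable (K F : Type*) [Field K] [IsAlgClosed K] [CharZero K] [Field F] [Algebra K F]
  [Algebra (RatFunc K) F] [IsScalarTower K (RatFunc K) F] [Algebra K[X] F]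
  [IsScalarTower K[X] (RatFunc K) F] [FiniteDimensional (RatFunc K) F]

/-- **(T1), RatFunc setting.** -/
theorem finrank_HolF_eq_genus [HasCanonicalDivisor (K := K) (F := F)] :
    Module.finrank K (HolF K (xF K F)) = genus K F :=
  finrank_HolF_eq_genus_of (isFunctionFieldOver_xF K F) (infDict K F) (mem_HolF_iff K F)
    (dwdStatement K F) (degOver_xF K F).symm

end

end Fermat.Agent.S20.T1

namespace Fermat.Agent.S20

open Fermat.Agent.S24

variable {K F : Type*} [Field K] [Field F] [Algebra K F] [IsAlgClosed K] [CharZero K]

/-- **(T1)** For a function field `F/K` in one variable over an algebraically closed field of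
characteristic zero, with separating variable `x`: the `K`-space `HolF K x` of (coefficients
`f` of) regular differentials `f • d x` has dimension the genus of `F/K`. -/
theorem finrank_HolF_eq_genus_of_isFunctionFieldOver {x : F} (hF : IsFunctionFieldOver K x)
    [HasCanonicalDivisor (K := K) (F := F)] :
    Module.finrank K (HolF K x) = genus K F := by
  letI := T1Setup.algRat hF.transcendental
  letI := T1Setup.algPoly (K := K) x
  haveI := T1Setup.isScalarTower_K hF.transcendental
  haveI := T1Setup.isScalarTower_poly hF.transcendental
  haveI := T1Setup.finiteDimensional_of hF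
  have hx : T1.xF K F = x := T1Setup.algebraMap_X hF.transcendental
  rw [← hx]
  exact T1.finrank_HolF_eq_genus K F

end Fermat.Agent.S20
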