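/-
S20 / T1-GLUE, package T1-DUALMEM (helper86): exact Skeleton statement
`Fermat.Agent.S20.T1.mem_traceDual_one_iff`, from `T1Dual86.mem_traceDual_one_iff_of_uniformizer`.
-/
import Fermat.Agent.S20.T1Dual86

set_option autoImplicit false

open IsDedekindDomain WithZero

namespace Fermat.Agent.S20.T1

section DUALMEM

theorem mem_traceDual_one_iff {A K₀ R F : Type*} [CommRing A] [IsDedekindDomain A]
    [IsPrincipalIdealRing A] [Field K₀]
    [Algebra A K₀] [IsFractionRing A K₀] [Field F] [Algebra K₀ F] [Algebra A F]
    [IsScalarTower A K₀ F] [FiniteDimensional K₀ F] [Algebra.IsSeparable K₀ F]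
    [CommRing R] [IsDedekindDomain R] [Algebra A R] [Algebra R F] [IsScalarTower A R F]
    [IsIntegralClosure R A F] [IsFractionRing R F] [Module.IsTorsionFree A R] [Module.Finite A R]
    (hchar : ∀ p : Ideal A, p.IsMaximal → CharZero (A ⧸ p)) (f : F) :
    f ∈ Submodule.traceDual A K₀ (1 : Submodule R F) ↔
      ∀ (P : HeightOneSpectrum R) (t : A), Ideal.span {t} = P.asIdeal.under A →
        P.valuation F (f * algebraMap A F t) < 1 := by
  classical
  have hint : Algebra.IsIntegral A R := IsIntegralClosure.isIntegral_algebra A F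
  -- the prime below `P`
  have hmax : ∀ P : HeightOneSpectrum R, (P.asIdeal.under A).IsMaximal := fun P => by
    have := P.isMaximal
    exact Ideal.isMaximal_comap_of_isIntegral_of_isMaximal (R := A) P.asIdeal
  have hnebot : ∀ P : HeightOneSpectrum R, P.asIdeal.under A ≠ ⊥ := fun P =>
    Ideal.IsIntegral.comap_ne_bot A P.ne_bot
  -- a generator of the prime below `P`
  have hgen : ∀ P : HeightOneSpectrum R, ∃ t : A, Ideal.span {t} = P.asIdeal.under A := fun P =>
    ⟨Submodule.IsPrincipal.generator (P.asIdeal.under A),
      Ideal.span_singleton_generator (P.asIdeal.under A)⟩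
  choose t ht using hgen
  have ht0 : ∀ P, t P ≠ 0 := fun P h0 => by
    apply hnebot P
    rw [← ht P, h0, Ideal.span_singleton_eq_bot]
  have htmax : ∀ P, (Ideal.span {t P}).IsMaximal := fun P => by rw [ht P]; exact hmax P
  have htP : ∀ P : HeightOneSpectrum R, algebraMap A R (t P) ∈ P.asIdeal := fun P => by
    have : t P ∈ P.asIdeal.under A := by
      rw [← ht P]; exact Ideal.mem_span_singleton_self _
    exact this
  rw [T1Dual86.mem_traceDual_one_iff_of_uniformizer A K₀ F t htmax ht0 htP
    (fun P => hchar _ (htmax P)) f]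
  constructor
  · intro h P s hs
    -- `s` and `t P` generate the same ideal, hence are associated
    have hassoc : Associated s (t P) := by
      rw [← Ideal.span_singleton_eq_span_singleton, hs, ht P]
    obtain ⟨u, hu⟩ := hassoc
    have hu1 : P.valuation F (algebraMap A F (u : A)) = 1 := by
      have hunit : IsUnit (algebraMap A R (u : A)) := u.isUnit.map _
      rw [IsScalarTower.algebraMap_apply A R F]
      have h1 := P.valuation_le_one (K := F) (algebraMap A R (u : A))
      have h2 := P.valuation_le_one (K := F) (algebraMap A R ((u⁻¹ : Aˣ) : A))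
      have h3 : P.valuation F (algebraMap R F (algebraMap A R (u : A))) *
          P.valuation F (algebraMap R F (algebraMap A R ((u⁻¹ : Aˣ) : A))) = 1 := by
        rw [← map_mul, ← map_mul, ← map_mul, Units.mul_inv, map_one, map_one, map_one]
      refine le_antisymm h1 ?_
      by_contra hlt
      push Not at hlt
      have : P.valuation F (algebraMap R F (algebraMap A R (u : A))) *
          P.valuation F (algebraMap R F (algebraMap A R ((u⁻¹ : Aˣ) : A))) < 1 := by
        calc _ ≤ P.valuation F (algebraMap R F (algebraMap A R (u : A))) * 1 := by gcongr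
          _ < 1 := by rwa [mul_one]
      rw [h3] at this
      exact lt_irrefl _ this
    have hs' : algebraMap A F s = algebraMap A F (t P) * (algebraMap A F ((u⁻¹ : Aˣ) : A)) := by
      rw [← map_mul, ← hu, mul_assoc, Units.mul_inv, mul_one]
    have hu2 : P.valuation F (algebraMap A F ((u⁻¹ : Aˣ) : A)) = 1 := by
      have h3 : P.valuation F (algebraMap A F (u : A)) *
          P.valuation F (algebraMap A F ((u⁻¹ : Aˣ) : A)) = 1 := by
        rw [← map_mul, ← map_mul, Units.mul_inv, map_one, map_one]
      rwa [hu1, one_mul] at h3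
    rw [map_mul, hs', map_mul, hu2, mul_one]
    refine lt_of_le_of_lt (h P) ?_
    rw [← exp_zero]
    exact exp_lt_exp.mpr (by norm_num)
  · intro h P
    have h1 := h P (t P) (ht P)
    rw [map_mul] at h1
    exact Fermat.Agent.S24.PlaceDedekind.le_exp_neg_one_of_lt_one h1

end DUALMEM

end Fermat.Agent.S20.T1
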