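/-
S20 / T1-GLUE, small lemmas of Skeleton PKG T1-INF (helper9): the ring at infinity `Oinf K`.

Namespace `Fermat.Agent.S20.T1.Inf9` (own namespace to avoid clashes; statements are those of
`T1/Skeleton.lean`): `tInf`, `coe_tInf`, `mem_maximalIdeal_Oinf_iff`, `maximalIdeal_Oinf`,
`charZero_quotient_Oinf`, `charZero_quotient_poly`.  No sorry.
-/
import Fermat.Agent.S20.T1.Setup

set_option autoImplicit false

open Polynomial
open scoped Classical

noncomputable section

namespace Fermat.Agent.S20.T1.Inf9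

open Fermat.Agent.S20.NormalBasis (Oinf)
open Fermat.Agent.S20 Fermat.Agent.S20.T1

/-! ## PKG T1-INF : small facts on the ring at infinity -/
section INF

variable (K : Type*) [Field K]

/-- `1/X` generates the maximal ideal of `Oinf K`. -/
def tInf : Oinf K := ⟨(RatFunc.X : RatFunc K)⁻¹, by
  rw [NormalBasis.mem_Oinf_iff]; right; simp⟩

theorem coe_tInf : ((tInf K : Oinf K) : RatFunc K) = (RatFunc.X : RatFunc K)⁻¹ := rfl

theorem mem_maximalIdeal_Oinf_iff (a : Oinf K) :
    a ∈ IsLocalRing.maximalIdeal (Oinf K) ↔ NormalBasis.IsNeg (a : RatFunc K) := by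
  rw [Valuation.mem_maximalIdeal_iff]
  unfold NormalBasis.IsNeg
  by_cases ha : (a : RatFunc K) = 0
  · simp [ha]
  · rw [RatFunc.inftyValuation_apply, RatFunc.inftyValuation_of_nonzero K ha]
    simp [ha, ← WithZero.exp_zero, WithZero.exp_lt_exp]

theorem maximalIdeal_Oinf : IsLocalRing.maximalIdeal (Oinf K) = Ideal.span {tInf K} := by
  ext a
  rw [mem_maximalIdeal_Oinf_iff, Ideal.mem_span_singleton']
  constructor
  · intro ha
    have hmem : (a : RatFunc K) * RatFunc.X ∈ Oinf K := by
      rw [NormalBasis.mem_Oinf_iff]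
      rcases ha with ha | ha
      · left; rw [ha, zero_mul]
      · by_cases ha0 : (a : RatFunc K) = 0
        · left; rw [ha0, zero_mul]
        · right
          rw [RatFunc.intDegree_mul ha0 RatFunc.X_ne_zero, RatFunc.intDegree_X]
          omega
    refine ⟨⟨(a : RatFunc K) * RatFunc.X, hmem⟩, ?_⟩
    apply Subtype.ext
    show (a : RatFunc K) * RatFunc.X * (RatFunc.X : RatFunc K)⁻¹ = (a : RatFunc K)
    rw [mul_assoc, mul_inv_cancel₀ RatFunc.X_ne_zero, mul_one]
  · rintro ⟨b, rfl⟩
    have : NormalBasis.IsNeg ((tInf K : Oinf K) : RatFunc K) := by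
      right
      rw [coe_tInf, RatFunc.intDegree_inv, RatFunc.intDegree_X]
      norm_num
    exact NormalBasis.IsNeg.mul_left b.2 this

variable [CharZero K]

theorem charZero_quotient_Oinf (p : Ideal (Oinf K)) (hp : p.IsMaximal) :
    CharZero (Oinf K ⧸ p) := by
  have : Nontrivial (Oinf K ⧸ p) := Ideal.Quotient.nontrivial_iff.mpr hp.ne_top
  exact charZero_of_injective_algebraMap (algebraMap K (Oinf K ⧸ p)).injective

theorem charZero_quotient_poly (p : Ideal K[X]) (hp : p.IsMaximal) : CharZero (K[X] ⧸ p) := by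
  have : Nontrivial (K[X] ⧸ p) := Ideal.Quotient.nontrivial_iff.mpr hp.ne_top
  exact charZero_of_injective_algebraMap (algebraMap K (K[X] ⧸ p)).injective

end INF

end Fermat.Agent.S20.T1.Inf9
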