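/-
S20 / T1-GLUE, packages T1-INF (`Oinf_le_iff`) and T1-PL, INFINITE side (helper69): exact
`T1/Skeleton.lean` statements `Oinf_le_iff`, `exists_infPlace`, `infPlace_mem`, `under_infPlace`
(with `tInf := Inf9.tInf` of `T1/InfSmall9.lean`), plus the ramification statement
`pow_dvd_map_maximalIdeal_iff` (`e_P = -ord_P x`).  Thin adapter on top of the generic
`Fermat/Agent/S20/T1Inf69.lean`.  No sorry.
-/
import Fermat.Agent.S20.T1.Setup
import Fermat.Agent.S20.T1.InfSmall9
import Fermat.Agent.S20.T1Inf69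

set_option autoImplicit false
set_option linter.unusedSectionVars false

open Polynomial AlgebraicCurve IsDedekindDomain
open scoped Classical

noncomputable section

namespace Fermat.Agent.S20.T1

open Fermat.Agent.S20.NormalBasis (Oinf)
open Fermat.Agent.S20.T1 Fermat.Agent.S24

variable (K F : Type*) [Field K] [IsAlgClosed K] [CharZero K] [Field F] [Algebra K F]
  [Algebra (RatFunc K) F] [IsScalarTower K (RatFunc K) F] [Algebra K[X] F]
  [IsScalarTower K[X] (RatFunc K) F] [FiniteDimensional (RatFunc K) F]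

section INF

/-- A place contains `Oinf K` iff it lies over `∞`. -/
theorem Oinf_le_iff (v : Place K F) :
    (∀ r : Oinf K, algebraMap (Oinf K) F r ∈ v.toValuationSubring) ↔
      v ∈ placesOverInfty K (xF K F) := by
  have h := T1Inf69.Oinf_le_iff (k := K) v.toValuationSubring v.algebraMap_mem' v.ne_top'
  have h2 : v ∈ placesOverInfty K (xF K F) ↔ xF K F ∉ v.toValuationSubring := by
    change v.ord (xF K F) < 0 ↔ _
    rw [PlaceLocal.mem_iff_ord_nonneg, not_le]
  rw [h2]
  refine Iff.trans ⟨fun hO r hr => ?_, fun hO r => ?_⟩ h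
  · have := hO ⟨r, hr⟩
    rwa [T1Inf69.algebraMap_Oinf_eq] at this
  · rw [T1Inf69.algebraMap_Oinf_eq]
    exact hO _ r.2

end INF

section PL

theorem exists_infPlace (v : Place K F) (hv : v ∈ placesOverInfty K (xF K F)) :
    ∃ P : HeightOneSpectrum (Binf K F), Place.ofHeightOneSpectrum (K := K) P = v :=
  T1Inf69.exists_placeOf_eq (k := K) (F := F) hv

theorem infPlace_mem (P : HeightOneSpectrum (Binf K F)) :
    Place.ofHeightOneSpectrum (K := K) (F := F) P ∈ placesOverInfty K (xF K F) :=
  T1Inf69.placeOf_mem_placesOverInfty (k := K) (F := F) P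

theorem tInf_eq_piInf : Inf9.tInf K = T1Inf69.piInf := rfl

theorem under_infPlace (P : HeightOneSpectrum (Binf K F)) :
    P.asIdeal.under (Oinf K) = Ideal.span {Inf9.tInf K} := by
  rw [← Inf9.maximalIdeal_Oinf]
  have hmax : (P.asIdeal.under (Oinf K)).IsMaximal :=
    Ideal.IsMaximal.under (Oinf K) P.asIdeal
  exact IsLocalRing.eq_maximalIdeal hmax

/-- `P ^ e ∣ 𝔪_∞ B_∞ ↔ e ≤ -ord_P x`: the ramification index over `∞` is `-ord_P x`. -/
theorem pow_dvd_map_maximalIdeal_iff (P : HeightOneSpectrum (Binf K F)) (e : ℕ) :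
    P.asIdeal ^ e ∣ (IsLocalRing.maximalIdeal (Oinf K)).map (algebraMap (Oinf K) (Binf K F)) ↔
      (e : ℤ) ≤ -(Place.ofHeightOneSpectrum (K := K) (F := F) P).ord (xF K F) := by
  rw [← T1Inf69.mInf_eq_maximalIdeal]
  exact T1Inf69.pow_dvd_map_mInf_iff (k := K) (F := F) P e

/-- The valuation of `x` at a prime over `∞` is `exp (-ord_P x) > 1`. -/
theorem one_lt_valuation_xF (P : HeightOneSpectrum (Binf K F)) :
    1 < P.valuation F (xF K F) :=
  T1Inf69.one_lt_valuation_X (k := K) (F := F) P

end PL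

end Fermat.Agent.S20.T1
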