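/-
S20 / T1-GLUE (helper69): the infinite place dictionary `InfDict K F` of `T1/Degree.lean`
(hypothesis `hInf` of `T1.finrank_HolF_eq_genus_of` in `T1/Assembly.lean`), unconditionally.
BACKUP of `T1/InfDictProof.lean` (helper92); names suffixed `69` to avoid clashes.
No sorry.
-/
import Fermat.Agent.S20.T1.Degree
import Fermat.Agent.S20.T1.PLInf
import Fermat.Agent.S20.T1.RamCountT1
import Fermat.Agent.S20.TameDiff79

set_option autoImplicit false
set_option linter.unusedSectionVars false

open Polynomial AlgebraicCurve IsDedekindDomain UniqueFactorizationMonoid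
open scoped Classical

noncomputable section

namespace Fermat.Agent.S20.T1

open Fermat.Agent.S20.NormalBasis (Oinf)
open Fermat.Agent.S20.T1 Fermat.Agent.S24

variable (K F : Type*) [Field K] [Field F] [Algebra K F] [Algebra (RatFunc K) F]
  [IsScalarTower K (RatFunc K) F] [Algebra K[X] F] [IsScalarTower K[X] (RatFunc K) F]
  [FiniteDimensional (RatFunc K) F] [CharZero K] [IsAlgClosed K]

/-- The exponent of a prime `P` over `∞` in the different of `B_∞ / O_∞` is `e_P - 1` with
`e_P = -ord_P x`. -/
theorem count_differentIdeal_Binf69 (P : HeightOneSpectrum (Binf K F)) :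
    ((normalizedFactors (differentIdeal (Oinf K) (Binf K F))).count P.asIdeal : ℤ) =
      -(Place.ofHeightOneSpectrum (K := K) (F := F) P).ord (xF K F) - 1 := by
  have hsep := RamCountT1.isSeparable_fractionRing_Binf K F
  have hmax : (IsLocalRing.maximalIdeal (Oinf K)).IsMaximal := inferInstance
  have hchar : CharZero (Oinf K ⧸ IsLocalRing.maximalIdeal (Oinf K)) :=
    Inf9.charZero_quotient_Oinf K _ hmax
  have hbot : IsLocalRing.maximalIdeal (Oinf K) ≠ ⊥ := by
    rw [← T1Inf69.mInf_eq_maximalIdeal]; exact T1Inf69.mInf_ne_bot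
  have hneg : (Place.ofHeightOneSpectrum (K := K) (F := F) P).ord (xF K F) < 0 :=
    infPlace_mem K F P
  obtain ⟨e, he⟩ := Int.eq_ofNat_of_zero_le
    (a := -(Place.ofHeightOneSpectrum (K := K) (F := F) P).ord (xF K F)) (by omega)
  have he0 : e ≠ 0 := by omega
  have he1 : P.asIdeal ^ e ∣
      (IsLocalRing.maximalIdeal (Oinf K)).map (algebraMap (Oinf K) (Binf K F)) := by
    rw [pow_dvd_map_maximalIdeal_iff]; omega
  have he2 : ¬ P.asIdeal ^ (e + 1) ∣
      (IsLocalRing.maximalIdeal (Oinf K)).map (algebraMap (Oinf K) (Binf K F)) := by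
    rw [pow_dvd_map_maximalIdeal_iff]; push_cast; omega
  have hcount := TameDiff79.count_normalizedFactors_differentIdeal (Oinf K)
    (p := IsLocalRing.maximalIdeal (Oinf K)) hbot P.asIdeal P.ne_bot he0 he1 he2
  rw [hcount, he]
  have : 1 ≤ e := Nat.one_le_iff_ne_zero.mpr he0
  omega

/-- **G2-inf**: the infinite place dictionary. -/
theorem infDict69 : InfDict K F where
  exists_infPrime := exists_infPlace K F
  infPlace_mem := infPlace_mem K F
  ord_xF := fun P => by
    have := count_differentIdeal_Binf69 K F P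
    omega

end Fermat.Agent.S20.T1
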