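import Fermat.Agent.S20.T1.Hol
import Fermat.Agent.S20.T1.Degree

/-!
# S20 / T1 glue (helper63): the infinite place dictionary `InfDict K F`

Proves the structure `InfDict K F` of `T1/Degree.lean` from the lemmas of `T1/Hol.lean`
(`exists_inf_prime`, `ord_xF_inf`) and the tame different exponent (`TameDiff79`).
-/

set_option autoImplicit false
set_option linter.style.haveILetI false
set_option linter.unusedSectionVars false

open Polynomial AlgebraicCurve IsDedekindDomain IsDedekindDomain.HeightOneSpectrum
  UniqueFactorizationMonoid
open scoped Classical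

namespace Fermat.Agent.S20.T1

open Fermat.Agent.S20.NormalBasis (Oinf)
open Fermat.Agent.S24

namespace Hol

attribute [local instance] FractionRing.liftAlgebra FractionRing.isScalarTower_liftAlgebra
  Ideal.Quotient.field

section Generic

variable (A E F B : Type*) [CommRing A] [Field E] [CommRing B] [Field F]
  [Algebra A E] [Algebra B F] [Algebra A B] [Algebra E F] [Algebra A F]
  [IsScalarTower A E F] [IsScalarTower A B F]
  [IsFractionRing A E] [IsFractionRing B F]
  [IsDedekindDomain A] [IsDedekindDomain B]
  [Module.IsTorsionFree A B] [Module.Finite A B]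
  [FiniteDimensional E F] [Algebra.IsSeparable E F]

include E F in
/-- Tame case: the exponent of `P` in the different is `e_P - 1` (`ramificationIdx` form). -/
theorem count_differentIdeal_eq_ramificationIdx_sub_one
    (P : HeightOneSpectrum B) [CharZero (A ⧸ P.asIdeal.under A)] :
    (normalizedFactors (differentIdeal A B)).count P.asIdeal =
      P.asIdeal.ramificationIdx A - 1 := by
  have hsep : Algebra.IsSeparable (FractionRing A) (FractionRing B) :=
    Fermat.Agent.S20.TameDual79.isSeparable_fractionRing A E F B
  set p := P.asIdeal.under A with hpdef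
  have hPbot : P.asIdeal ≠ ⊥ := P.ne_bot
  have hp : p ≠ ⊥ := mt Ideal.eq_bot_of_comap_eq_bot hPbot
  have hpmax : p.IsMaximal := Ideal.IsPrime.isMaximal inferInstance hp
  have hp' : p.map (algebraMap A B) ≠ ⊥ := (Ideal.map_eq_bot_iff_of_injective
    (FaithfulSMul.algebraMap_injective A B)).not.mpr hp
  set e := P.asIdeal.ramificationIdx A with hedef
  have he : e = multiplicity P.asIdeal (p.map (algebraMap A B)) :=
    Ideal.IsDedekindDomain.ramificationIdx_eq_multiplicity p P.asIdeal hp'
  have he0 : e ≠ 0 := (Ideal.ramificationIdx_pos P.asIdeal A).ne'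
  have hfin : FiniteMultiplicity P.asIdeal (p.map (algebraMap A B)) :=
    FiniteMultiplicity.of_not_isUnit (by
      rw [Ideal.isUnit_iff]; exact P.isPrime.ne_top) hp'
  have he1 : P.asIdeal ^ e ∣ p.map (algebraMap A B) := by
    rw [he]; exact pow_multiplicity_dvd _ _
  have he2 : ¬ P.asIdeal ^ (e + 1) ∣ p.map (algebraMap A B) := by
    rw [he]; exact hfin.not_pow_dvd_of_multiplicity_lt (Nat.lt_succ_self _)
  exact Fermat.Agent.S20.TameDiff79.count_normalizedFactors_differentIdeal A hp P.asIdeal hPbot
    he0 he1 he2

end Generic

end Hol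

section

variable (K F : Type*) [Field K] [Field F] [Algebra K F] [Algebra (RatFunc K) F]
  [IsScalarTower K (RatFunc K) F] [Algebra K[X] F] [IsScalarTower K[X] (RatFunc K) F]
  [FiniteDimensional (RatFunc K) F] [CharZero K] [IsAlgClosed K]

/-- **G2-inf**: the place dictionary on the infinite side. -/
theorem infDict63 : InfDict K F where
  exists_infPrime := fun v hv => Hol.exists_inf_prime v hv
  infPlace_mem := fun P => Hol.ord_xF_inf_neg P
  ord_xF := fun P => by
    haveI : CharZero (Oinf K ⧸ P.asIdeal.under (Oinf K)) :=
      Fermat.Agent.S20.TameDiff79.charZero_quotient_of_field_algebra K _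
        (Ideal.IsPrime.ne_top inferInstance)
    rw [Hol.ord_xF_inf,
      Hol.count_differentIdeal_eq_ramificationIdx_sub_one (Oinf K) (RatFunc K) F (Binf K F) P]
    have : 0 < P.asIdeal.ramificationIdx (Oinf K) := Ideal.ramificationIdx_pos _ _
    omega

end

end Fermat.Agent.S20.T1
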