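/-
S20 / T1-GLUE, package T1-PL, FINITE side (helper86): exact `T1/Skeleton.lean` statements
`exists_finPlace`, `finPlace_mem`, `under_finPlace`, `residue_surjective_fin`.
-/
import Fermat.Agent.S20.T1.Setup
import Fermat.Agent.S20.T1.RamCountT1
import Fermat.Agent.S24.PlaceDedekind
import Fermat.Agent.S24.PlaceLocal

set_option autoImplicit false
set_option linter.unusedSectionVars false

open Polynomial AlgebraicCurve KaehlerDifferential IsDedekindDomain
open scoped Classical

noncomputable section

namespace Fermat.Agent.S20.T1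

open Fermat.Agent.S20.NormalBasis (Oinf)
open Fermat.Agent.S20.T1 Fermat.Agent.S24

variable (K F : Type*) [Field K] [IsAlgClosed K] [CharZero K] [Field F] [Algebra K F]
  [Algebra (RatFunc K) F] [IsScalarTower K (RatFunc K) F] [Algebra K[X] F]
  [IsScalarTower K[X] (RatFunc K) F] [FiniteDimensional (RatFunc K) F]

section PL

/-- The image of `K[X]` lies in every valuation ring containing `K` and `x`. -/
theorem plfin_algebraMap_poly_mem (V : ValuationSubring F) (hK : ∀ a : K, algebraMap K F a ∈ V)
    (hx : xF K F ∈ V) (p : K[X]) : algebraMap K[X] F p ∈ V := by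
  induction p using Polynomial.induction_on' with
  | add p q hp hq => rw [map_add]; exact add_mem hp hq
  | monomial n a =>
    rw [← Polynomial.C_mul_X_pow_eq_monomial, map_mul, map_pow, algebraMap_poly_X,
      ← Polynomial.algebraMap_eq, ← IsScalarTower.algebraMap_apply K K[X] F]
    exact mul_mem (hK a) (pow_mem hx n)

/-- `Bfin` lies in every valuation ring containing `K` and `x`. -/
theorem plfin_Bfin_le (V : ValuationSubring F) (hK : ∀ a : K, algebraMap K F a ∈ V)
    (hx : xF K F ∈ V) (b : Bfin K F) : algebraMap (Bfin K F) F b ∈ V := by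
  obtain ⟨p, hp, hpb⟩ := b.2
  let ι : K[X] →+* V := (algebraMap K[X] F).codRestrict V.toSubring
    (fun q => plfin_algebraMap_poly_mem K F V hK hx q)
  have hint : IsIntegral V (b : F) := by
    refine ⟨p.map ι, hp.map ι, ?_⟩
    rw [Polynomial.eval₂_map]
    exact hpb
  obtain ⟨y, hy⟩ := IsIntegrallyClosed.algebraMap_eq_of_integral (R := V) (K := F) hint
  show (b : F) ∈ V
  rw [← hy]
  exact y.2

theorem exists_finPlace (v : Place K F) (hv : xF K F ∈ v.toValuationSubring) :
    ∃ P : HeightOneSpectrum (Bfin K F), Place.ofHeightOneSpectrum (K := K) P = v :=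
  PlaceDedekind.exists_ofHeightOneSpectrum_eq v
    (fun b => plfin_Bfin_le K F v.toValuationSubring v.algebraMap_mem' hv b)

theorem finPlace_mem (P : HeightOneSpectrum (Bfin K F)) :
    xF K F ∈ (Place.ofHeightOneSpectrum (K := K) (F := F) P).toValuationSubring := by
  rw [PlaceDedekind.mem_ofHeightOneSpectrum_iff, ← algebraMap_poly_X,
    IsScalarTower.algebraMap_apply K[X] (Bfin K F) F]
  exact P.valuation_le_one _


theorem plfin_algebraMap_poly_X_sub_C (c : K) :
    algebraMap K[X] F (X - C c) = xF K F - algebraMap K F c := by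
  rw [map_sub, algebraMap_poly_X, ← Polynomial.algebraMap_eq,
    ← IsScalarTower.algebraMap_apply K K[X] F]

/-- generators of `P ∩ K[X]`: exactly `X - c` up to units, where the place lies over `c`. -/
theorem under_finPlace (P : HeightOneSpectrum (Bfin K F)) :
    ∃ c : K, P.asIdeal.under K[X] = Ideal.span {X - C c} ∧
      Place.ofHeightOneSpectrum (K := K) (F := F) P ∈ placesOver (xF K F) c := by
  have hint : Algebra.IsIntegral K[X] (Bfin K F) := integralClosure.AlgebraIsIntegral
  have hmax : (P.asIdeal.under K[X]).IsMaximal := by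
    have := P.isMaximal
    exact Ideal.isMaximal_comap_of_isIntegral_of_isMaximal (R := K[X]) P.asIdeal
  obtain ⟨c, hc⟩ := Fermat.Agent.S20.RamCountPoly.exists_eq_span_X_sub_C (P.asIdeal.under K[X])
  refine ⟨c, hc, ?_⟩
  show 0 < (Place.ofHeightOneSpectrum (K := K) (F := F) P).ord (xF K F - algebraMap K F c)
  have hmem : algebraMap K[X] (Bfin K F) (X - C c) ∈ P.asIdeal := by
    have : (X - C c : K[X]) ∈ P.asIdeal.under K[X] := by
      rw [hc]; exact Ideal.mem_span_singleton_self _
    exact this
  have hlt : P.valuation F (algebraMap K[X] F (X - C c)) < 1 := by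
    rw [IsScalarTower.algebraMap_apply K[X] (Bfin K F) F]
    exact (P.valuation_lt_one_iff_mem (K := F) _).mpr hmem
  have hne : algebraMap K[X] F (X - C c) ≠ 0 := by
    have hinj : Function.Injective (algebraMap K[X] F) := by
      rw [IsScalarTower.algebraMap_eq K[X] (RatFunc K) F]
      exact (algebraMap (RatFunc K) F).injective.comp (IsFractionRing.injective K[X] (RatFunc K))
    rw [ne_eq, map_eq_zero_iff _ hinj]
    exact Polynomial.X_sub_C_ne_zero c
  rw [plfin_algebraMap_poly_X_sub_C] at hlt hne
  rw [PlaceDedekind.ord_ofHeightOneSpectrum]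
  have h0 : P.valuation F (xF K F - algebraMap K F c) ≠ 0 := (Valuation.ne_zero_iff _).mpr hne
  have : WithZero.log (P.valuation F (xF K F - algebraMap K F c)) < 0 := by
    rw [WithZero.log_lt_iff_lt_exp h0, WithZero.exp_zero]; exact hlt
  omega

/-- residue fields are `K`. -/
theorem residue_surjective_fin (P : HeightOneSpectrum (Bfin K F)) :
    Function.Surjective (algebraMap K (Bfin K F ⧸ P.asIdeal)) :=
  RamCountT1.residue_surjective_Bfin K F P.asIdeal P.isMaximal

end PL

end Fermat.Agent.S20.T1
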