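/-
S20 / T1-GLUE (helper92): SKELETON of the package statements (all `sorry`), development only.
NOT imported by any final file.  Each package owner proves the statements of one section in
their OWN file `Fermat/Agent/S20/T1/<Pkg>.lean`, namespace `Fermat.Agent.S20.T1` (same names),
importing `Fermat.Agent.S20.T1.Setup` (+ `HolDef`, `LatticeDims`, S24 files as needed).
-/
import Fermat.Agent.S20.T1.Setup
import Fermat.Agent.S20.HolDef
import Fermat.Agent.S20.LatticeDims
import Fermat.Agent.S20.TameDiff79
import Fermat.Agent.S24.PlaceDedekind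

set_option autoImplicit false

open Polynomial AlgebraicCurve KaehlerDifferential IsDedekindDomain
open scoped Classical

noncomputable section

namespace Fermat.Agent.S20.T1.Skeleton

open Fermat.Agent.S20.NormalBasis (Oinf)
open Fermat.Agent.S20.T1 Fermat.Agent.S24
open Fermat.Agent.S20.LatticeDims (scaled)

/-! ## PKG T1-DUALMEM (generic Dedekind; uses DW-a = TameDiff79)

`A ⊆ R` Dedekind, `R` the integral closure of `A` in the finite separable extension `F/K₀`,
all residue fields of `A` of characteristic zero (tame).  Then `f` lies in the trace dual of `R`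
iff for every prime `P` of `R` and every generator `t` of `P ∩ A`, `f * t` vanishes at `P`
(i.e. `v_P f ≥ 1 - e_P`). -/
section DUALMEM

theorem mem_traceDual_one_iff {A K₀ R F : Type*} [CommRing A] [IsDedekindDomain A]
    [IsPrincipalIdealRing A] [Field K₀]
    [Algebra A K₀] [IsFractionRing A K₀] [Field F] [Algebra K₀ F] [Algebra A F]
    [IsScalarTower A K₀ F] [FiniteDimensional K₀ F] [Algebra.IsSeparable K₀ F]
    [CommRing R] [IsDedekindDomain R] [Algebra A R] [Algebra R F] [IsScalarTower A R F]
    [IsIntegralClosure R A F] [IsFractionRing R F] [Module.IsTorsionFree A R] [Module.Finite A R]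
    (hchar : ∀ p : Ideal A, p.IsMaximal → CharZero (A ⧸ p)) (f : F) :
    f ∈ Submodule.traceDual A K₀ (1 : Submodule R F) ↔
      ∀ (P : HeightOneSpectrum R) (t : A), Ideal.span {t} = P.asIdeal.under A →
        P.valuation F (f * algebraMap A F t) < 1 := sorry

end DUALMEM

/-! ## PKG T1-LEN (generic Dedekind): `dim_K (R ⧸ I) = Σ_P count_P I` when all residue fields
are `K`. -/
section LEN

theorem finrank_quotient_eq_finsum {K R : Type*} [Field K] [CommRing R] [IsDedekindDomain R]
    [Algebra K R] (hres : ∀ P : HeightOneSpectrum R,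
      Function.Surjective (algebraMap K (R ⧸ P.asIdeal)))
    {I : Ideal R} (hI : I ≠ ⊥) :
    Module.finrank K (R ⧸ I) =
      ∑ᶠ P : HeightOneSpectrum R, (UniqueFactorizationMonoid.normalizedFactors I).count P.asIdeal :=
  sorry

end LEN

/-! ## The RatFunc setting -/

variable (K F : Type*) [Field K] [IsAlgClosed K] [CharZero K] [Field F] [Algebra K F]
  [Algebra (RatFunc K) F] [IsScalarTower K (RatFunc K) F] [Algebra K[X] F]
  [IsScalarTower K[X] (RatFunc K) F] [FiniteDimensional (RatFunc K) F]

/-! ## PKG T1-FF : the setting is an S24 function field -/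
section FF

theorem isFunctionFieldOver_xF : IsFunctionFieldOver K (xF K F) := sorry

theorem degOver_xF : degOver K (xF K F) = Module.finrank (RatFunc K) F := sorry

end FF

/-! ## PKG T1-INF : the ring at infinity -/
section INF

/-- `1/X` generates the maximal ideal of `Oinf K`. -/
def tInf : Oinf K := ⟨(RatFunc.X : RatFunc K)⁻¹, by
  rw [NormalBasis.mem_Oinf_iff]; right; simp⟩

theorem maximalIdeal_Oinf : IsLocalRing.maximalIdeal (Oinf K) = Ideal.span {tInf K} := sorry

theorem charZero_quotient_Oinf (p : Ideal (Oinf K)) (hp : p.IsMaximal) : CharZero (Oinf K ⧸ p) :=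
  sorry

theorem charZero_quotient_poly (p : Ideal K[X]) (hp : p.IsMaximal) : CharZero (K[X] ⧸ p) :=
  sorry

/-- A place contains `Oinf K` iff it lies over `∞`. -/
theorem Oinf_le_iff (v : Place K F) :
    (∀ r : Oinf K, algebraMap (Oinf K) F r ∈ v.toValuationSubring) ↔
      v ∈ placesOverInfty K (xF K F) := sorry

end INF

/-! ## PKG T1-PL : places ↔ primes of `Bfin`, `Binf` -/
section PL

theorem exists_finPlace (v : Place K F) (hv : xF K F ∈ v.toValuationSubring) :
    ∃ P : HeightOneSpectrum (Bfin K F), Place.ofHeightOneSpectrum (K := K) P = v := sorry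

theorem finPlace_mem (P : HeightOneSpectrum (Bfin K F)) :
    xF K F ∈ (Place.ofHeightOneSpectrum (K := K) (F := F) P).toValuationSubring := sorry

theorem exists_infPlace (v : Place K F) (hv : v ∈ placesOverInfty K (xF K F)) :
    ∃ P : HeightOneSpectrum (Binf K F), Place.ofHeightOneSpectrum (K := K) P = v := sorry

theorem infPlace_mem (P : HeightOneSpectrum (Binf K F)) :
    Place.ofHeightOneSpectrum (K := K) (F := F) P ∈ placesOverInfty K (xF K F) := sorry

/-- generators of `P ∩ K[X]`: exactly `X - c` up to units, where the place lies over `c`. -/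
theorem under_finPlace (P : HeightOneSpectrum (Bfin K F)) :
    ∃ c : K, P.asIdeal.under K[X] = Ideal.span {X - C c} ∧
      Place.ofHeightOneSpectrum (K := K) (F := F) P ∈ placesOver (xF K F) c := sorry

theorem under_infPlace (P : HeightOneSpectrum (Binf K F)) :
    P.asIdeal.under (Oinf K) = Ideal.span {tInf K} := sorry

/-- residue fields are `K` (from S24 FF1a `place_deg_eq_one` + `PlaceDedekind.residueEquiv`). -/
theorem residue_surjective_fin (P : HeightOneSpectrum (Bfin K F)) :
    Function.Surjective (algebraMap K (Bfin K F ⧸ P.asIdeal)) := sorry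

theorem residue_surjective_inf (P : HeightOneSpectrum (Binf K F)) :
    Function.Surjective (algebraMap K (Binf K F ⧸ P.asIdeal)) := sorry

end PL

/-! ## PKG T1-LAT : `Bfin`, `Binf` as lattices; Dedekind–Weber normal basis (from DW-b) -/
section LAT

theorem exists_normal_basis :
    ∃ (n : ℕ) (u : Module.Basis (Fin n) (RatFunc K) F) (d : Fin n → ℤ),
      Submodule.span K[X] (Set.range u) = Subalgebra.toSubmodule (Bfin K F) ∧
      Submodule.span (Oinf K) (Set.range (scaled u d)) = Subalgebra.toSubmodule (Binf K F) := sorry

end LAT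

/-! ## PKG T1-CONST : everywhere integral functions are constants -/
section CONST

theorem mem_Bfin_and_mem_Binf_iff (f : F) :
    (f ∈ Bfin K F ∧ f ∈ Binf K F) ↔ f ∈ Set.range (algebraMap K F) := sorry

end CONST

/-! ## PKG T1-HOL : regular differentials = intersection of the two trace duals -/
section HOL

theorem mem_HolF_iff (f : F) :
    f ∈ HolF K (xF K F) ↔
      (f ∈ (Algebra.traceForm (RatFunc K) F).dualSubmodule (Subalgebra.toSubmodule (Bfin K F)) ∧
        ((RatFunc.X : RatFunc K) ^ 2 • f) ∈
          (Algebra.traceForm (RatFunc K) F).dualSubmodule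
            (Subalgebra.toSubmodule (Binf K F))) := sorry

end HOL

/-! ## PKG T1-DEG : degree of the canonical divisor in terms of the two differents -/
section DEG

/-- total exponent of the different of `R/A` -/
def ramSum (A R : Type*) [CommRing A] [IsDomain A] [CommRing R] [Algebra A R]
    [IsDedekindDomain R] [Module.IsTorsionFree A R] : ℕ :=
  ∑ᶠ P : HeightOneSpectrum R,
    (UniqueFactorizationMonoid.normalizedFactors (differentIdeal A R)).count P.asIdeal

theorem hasCanonicalDivisor : HasCanonicalDivisor (K := K) (F := F) := sorry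

theorem degree_canonicalDivisorOf [HasCanonicalDivisor (K := K) (F := F)] {ω : Ω[F⁄K]}
    (hω : ω ≠ 0) :
    Divisor.degree (canonicalDivisorOf hω) =
      (ramSum K[X] (Bfin K F) : ℤ) + ramSum (Oinf K) (Binf K F)
        - 2 * Module.finrank (RatFunc K) F := sorry

theorem exists_differential_ne_zero : ∃ ω : Ω[F⁄K], ω ≠ 0 := sorry

end DEG

/-! ## PKG DW-d (helper58) in the shape consumed here -/
section DWd

theorem finrank_quotient_different_add {n : ℕ} (u : Module.Basis (Fin n) (RatFunc K) F)
    (d : Fin n → ℤ)
    (hu : Submodule.span K[X] (Set.range u) = Subalgebra.toSubmodule (Bfin K F))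
    (hd : Submodule.span (Oinf K) (Set.range (scaled u d)) = Subalgebra.toSubmodule (Binf K F)) :
    (Module.finrank K (Bfin K F ⧸ differentIdeal K[X] (Bfin K F)) : ℤ) +
      Module.finrank K (Binf K F ⧸ differentIdeal (Oinf K) (Binf K F)) = 2 * ∑ i, d i := sorry

end DWd

/-! ## ASSEMBLY (helper92) -/
section ASM

theorem finrank_HolF_eq_genus [HasCanonicalDivisor (K := K) (F := F)] :
    Module.finrank K (HolF K (xF K F)) = genus K F := sorry

end ASM

end Fermat.Agent.S20.T1.Skeleton
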